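import Mathlib

/-!
# S18, package V, leaf (V-d,e): the abstract coordinate theorem — pure algebra

Setting: `O` a discrete valuation ring with uniformiser `ϖ`, `K = Frac O`, `F / K` a finite field
extension of degree `n`; `B ⊆ F` a subring containing `O` which is a valuation ring of `F`
(`x ∈ B ∨ x⁻¹ ∈ B`); a ring homomorphism `red : B → Ω'` into a field killing `ϖ`, compatible with a
ring homomorphism `ρ : O → κ` into a subfield-like `κ → Ω'`; `ξ ∈ B` such that
`1, ξ̄, …, ξ̄^{n-1}` are `κ`-linearly independent and `ξ̄` is separable over `κ`.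

Conclusions (elementary fundamental inequality + unit discriminant):
* `s18vc_linearIndependent` : `1, ξ, …, ξ^{n-1}` is a `K`-basis of `F`;
* `s18vc_repr_mem` : the coordinates of every `y ∈ B` lie in `O`, i.e. `B = ⊕ O ξ^i`;
* `s18vc_isIntegral_iff` : `B` is the integral closure of `O` in `F`;
* `s18vc_selfDual` : `B` is its own dual for the trace form of `F / K`.
-/

set_option autoImplicit false
set_option linter.unusedSectionVars false

noncomputable section

namespace Fermat.Agent.S18

open Polynomial IntermediateField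

section Scale

variable {O K : Type*} [CommRing O] [IsDomain O] [IsDiscreteValuationRing O]
  [Field K] [Algebra O K] [IsFractionRing O K]

/-- Scaling lemma: a nonzero finite family of `K = Frac O` can be scaled into `O` with one
coefficient not divisible by the uniformiser. -/
theorem s18vc_exists_scale {ι : Type*} [Finite ι] {ϖ : O} (hϖ : Irreducible ϖ) (c : ι → K)
    (hc : c ≠ 0) :
    ∃ (l : K) (a : ι → O), l ≠ 0 ∧ (∀ i, algebraMap O K (a i) = l * c i) ∧ ∃ i, ¬ ϖ ∣ a i := by
  classical
  obtain ⟨d, hd⟩ := IsLocalization.exist_integer_multiples_of_finite (nonZeroDivisors O) c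
  choose a' ha' using hd
  have hd0 : (d : O) ≠ 0 := nonZeroDivisors.coe_ne_zero d
  have hdK : algebraMap O K (d : O) ≠ 0 := by
    rw [Ne, map_eq_zero_iff _ (IsFractionRing.injective O K)]
    exact hd0
  have ha'' : ∀ i, algebraMap O K (a' i) = algebraMap O K (d : O) * c i := by
    intro i
    rw [ha' i, Algebra.smul_def]
  obtain ⟨i₁, hi₁⟩ : ∃ i, c i ≠ 0 := by
    by_contra h
    push Not at h
    exact hc (funext h)
  have ha'0 : a' i₁ ≠ 0 := by
    intro h0
    have := ha'' i₁
    rw [h0, map_zero] at this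
    exact mul_ne_zero hdK hi₁ this.symm
  have hI : Ideal.span (Set.range a') ≠ ⊥ := by
    intro h
    have : a' i₁ ∈ Ideal.span (Set.range a') := Ideal.subset_span ⟨i₁, rfl⟩
    rw [h, Ideal.mem_bot] at this
    exact ha'0 this
  obtain ⟨m, hm⟩ := IsDiscreteValuationRing.ideal_eq_span_pow_irreducible hI hϖ
  have hmem : ∀ i, ϖ ^ m ∣ a' i := fun i => by
    have : a' i ∈ Ideal.span (Set.range a') := Ideal.subset_span ⟨i, rfl⟩
    rw [hm, Ideal.mem_span_singleton] at this
    exact this
  choose a ha using hmem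
  have hϖK : algebraMap O K (ϖ ^ m) ≠ 0 := by
    rw [Ne, map_eq_zero_iff _ (IsFractionRing.injective O K)]
    exact pow_ne_zero _ hϖ.ne_zero
  refine ⟨algebraMap O K (d : O) / algebraMap O K (ϖ ^ m), a, div_ne_zero hdK hϖK, ?_, ?_⟩
  · intro i
    have h1 := ha'' i
    rw [ha i, map_mul] at h1
    field_simp
    rw [mul_comm, h1]
  · by_contra hall
    push Not at hall
    have hle : Ideal.span (Set.range a') ≤ Ideal.span {ϖ ^ (m + 1)} := by
      rw [Ideal.span_le]
      rintro _ ⟨i, rfl⟩
      obtain ⟨r, hr⟩ := hall i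
      rw [SetLike.mem_coe, Ideal.mem_span_singleton, ha i, hr, pow_succ]
      exact Dvd.intro r (by ring)
    rw [hm, Ideal.span_singleton_le_span_singleton,
      pow_dvd_pow_iff hϖ.ne_zero hϖ.not_isUnit] at hle
    omega

end Scale

section Abstract

variable {O K F Ω' κ : Type*} [CommRing O] [IsDomain O] [IsDiscreteValuationRing O]
  [Field K] [Algebra O K] [IsFractionRing O K]
  [Field F] [Algebra K F] [Algebra O F] [IsScalarTower O K F]
  [Field Ω'] [Field κ] [Algebra κ Ω']

/-- `ρ a = 0 ⟹ ϖ ∣ a` (a ring hom from a local ring to a field kills no unit). -/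
theorem s18vc_dvd_of_map_eq_zero {ϖ : O} (hϖ : Irreducible ϖ) (ρ : O →+* κ) {a : O}
    (h : ρ a = 0) : ϖ ∣ a := by
  by_contra hnd
  have hu : IsUnit a := by
    have : a ∉ IsLocalRing.maximalIdeal O := by
      rw [(IsDiscreteValuationRing.irreducible_iff_uniformizer ϖ).mp hϖ, Ideal.mem_span_singleton]
      exact hnd
    exact IsLocalRing.notMem_maximalIdeal.mp this
  exact (hu.map ρ).ne_zero h

variable {ϖ : O} (hϖ : Irreducible ϖ) (B : Subring F) (hle : ∀ o : O, algebraMap O F o ∈ B)
  (red : ↥B →+* Ω') (ρ : O →+* κ)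
  (hunif : red ⟨algebraMap O F ϖ, hle ϖ⟩ = 0)
  (hcompat : ∀ o : O, algebraMap κ Ω' (ρ o) = red ⟨algebraMap O F o, hle o⟩)
  (ξ : ↥B)

include hunif hcompat in
theorem s18vc_map_unif : ρ ϖ = 0 := by
  apply (algebraMap κ Ω').injective
  rw [hcompat, hunif, map_zero]

include hcompat in
/-- reduction of an `O`-expansion in powers of `ξ` -/
theorem s18vc_red_expansion {n : ℕ} (w : ↥B) (o : Fin n → O)
    (hw : (w : F) = ∑ i, algebraMap O F (o i) * (ξ : F) ^ (i : ℕ)) :
    red w = ∑ i, ρ (o i) • red ξ ^ (i : ℕ) := by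
  have h2 : w = ∑ i, (⟨algebraMap O F (o i), hle _⟩ : ↥B) * ξ ^ (i : ℕ) := by
    apply Subtype.ext
    rw [hw]
    push_cast
    rfl
  rw [h2, map_sum]
  refine Finset.sum_congr rfl fun i _ => ?_
  rw [map_mul, map_pow, ← hcompat, Algebra.smul_def]

variable (hind : LinearIndependent κ (fun i : Fin (Module.finrank K F) => red ξ ^ (i : ℕ)))

include hϖ hcompat hind in
/-- if an `O`-combination of the `ξ^i` reduces to `0` then all coefficients are divisible by `ϖ` -/
theorem s18vc_dvd_of_red_eq_zero (w : ↥B) (o : Fin (Module.finrank K F) → O)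
    (hw : (w : F) = ∑ i, algebraMap O F (o i) * (ξ : F) ^ (i : ℕ)) (h0 : red w = 0) :
    ∀ i, ϖ ∣ o i := by
  intro i
  have h1 := s18vc_red_expansion B hle red ρ hcompat ξ w o hw
  rw [h0] at h1
  exact s18vc_dvd_of_map_eq_zero hϖ ρ (Fintype.linearIndependent_iff.mp hind _ h1.symm i)

include hϖ hcompat hind in
/-- (d1) `1, ξ, …, ξ^{n-1}` are linearly independent over `K`. -/
theorem s18vc_linearIndependent :
    LinearIndependent K (fun i : Fin (Module.finrank K F) => (ξ : F) ^ (i : ℕ)) := by
  rw [Fintype.linearIndependent_iff]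
  intro c hc
  by_contra hne
  have hc0 : c ≠ 0 := fun h => hne (fun i => by rw [h]; rfl)
  obtain ⟨l, a, -, hla, i₀, hi₀⟩ := s18vc_exists_scale hϖ c hc0
  have h1 : ((0 : ↥B) : F) = ∑ i, algebraMap O F (a i) * (ξ : F) ^ (i : ℕ) := by
    have h2 : ∀ i, algebraMap O F (a i) = algebraMap K F l * algebraMap K F (c i) := by
      intro i
      rw [IsScalarTower.algebraMap_apply O K F, hla, map_mul]
    simp_rw [h2, mul_assoc, ← Finset.mul_sum]
    have h3 : ∑ i, algebraMap K F (c i) * (ξ : F) ^ (i : ℕ) = 0 := by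
      simpa [Algebra.smul_def] using hc
    rw [h3, mul_zero]
    rfl
  exact hi₀ (s18vc_dvd_of_red_eq_zero hϖ B hle red ρ hcompat ξ hind 0 a h1 (map_zero _) i₀)

variable [FiniteDimensional K F]

/-- the power basis `ξ^i` of `F / K` -/
def s18vcBasis (hli : LinearIndependent K (fun i : Fin (Module.finrank K F) => (ξ : F) ^ (i : ℕ))) :
    Module.Basis (Fin (Module.finrank K F)) K F :=
  haveI : Nonempty (Fin (Module.finrank K F)) := ⟨⟨0, Module.finrank_pos⟩⟩
  basisOfLinearIndependentOfCardEqFinrank hli (Fintype.card_fin _)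

theorem s18vcBasis_apply
    (hli : LinearIndependent K (fun i : Fin (Module.finrank K F) => (ξ : F) ^ (i : ℕ)))
    (i : Fin (Module.finrank K F)) : s18vcBasis B ξ hli i = (ξ : F) ^ (i : ℕ) := by
  haveI : Nonempty (Fin (Module.finrank K F)) := ⟨⟨0, Module.finrank_pos⟩⟩
  exact congrFun (coe_basisOfLinearIndependentOfCardEqFinrank hli (Fintype.card_fin _)) i

/-- expansion of an element in the power basis, with `F`-multiplication -/
theorem s18vc_expand
    (hli : LinearIndependent K (fun i : Fin (Module.finrank K F) => (ξ : F) ^ (i : ℕ))) (y : F) :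
    y = ∑ i, algebraMap K F ((s18vcBasis B ξ hli).repr y i) * (ξ : F) ^ (i : ℕ) := by
  conv_lhs => rw [← (s18vcBasis B ξ hli).sum_repr y]
  refine Finset.sum_congr rfl fun i _ => ?_
  rw [s18vcBasis_apply, Algebra.smul_def]

include hϖ hunif hcompat hind in
/-- (d2) the coordinates of an element of `B` in the power basis lie in `O`. -/
theorem s18vc_repr_mem
    (hli : LinearIndependent K (fun i : Fin (Module.finrank K F) => (ξ : F) ^ (i : ℕ)))
    (y : F) (hy : y ∈ B) (i : Fin (Module.finrank K F)) :
    ∃ o : O, algebraMap O K o = (s18vcBasis B ξ hli).repr y i := by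
  classical
  set c : Fin (Module.finrank K F) → K := fun i => (s18vcBasis B ξ hli).repr y i with hcdef
  -- the family `(1, c)`
  let c' : Option (Fin (Module.finrank K F)) → K := fun j => j.elim 1 c
  have hc'0 : c' ≠ 0 := fun h => one_ne_zero (α := K) (congrFun h none)
  obtain ⟨l, a, hl, hla, hnd⟩ := s18vc_exists_scale hϖ c' hc'0
  have hl1 : algebraMap O K (a none) = l := by
    rw [hla none]
    exact mul_one l
  have hlc : ∀ i, algebraMap O K (a (some i)) = l * c i := fun i => hla (some i)
  -- the relation `a_⋆ y = ∑ a_i ξ^i`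
  have hrel : algebraMap O F (a none) * y =
      ∑ i, algebraMap O F (a (some i)) * (ξ : F) ^ (i : ℕ) := by
    conv_lhs => rw [s18vc_expand B ξ hli y, Finset.mul_sum]
    refine Finset.sum_congr rfl fun i _ => ?_
    rw [IsScalarTower.algebraMap_apply O K F, IsScalarTower.algebraMap_apply O K F, hl1, hlc,
      map_mul, mul_assoc]
  by_cases hdvd : ϖ ∣ a none
  · -- impossible: reduce
    exfalso
    obtain ⟨r, hr⟩ := hdvd
    have h0 : red (⟨algebraMap O F (a none), hle _⟩ * ⟨y, hy⟩) = 0 := by
      have : (⟨algebraMap O F (a none), hle _⟩ : ↥B) =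
          ⟨algebraMap O F ϖ, hle ϖ⟩ * ⟨algebraMap O F r, hle r⟩ := by
        apply Subtype.ext
        push_cast
        rw [hr, map_mul]
      rw [map_mul, this, map_mul, hunif, zero_mul, zero_mul]
    have hall := s18vc_dvd_of_red_eq_zero hϖ B hle red ρ hcompat ξ hind _ (fun i => a (some i))
      (by push_cast; exact hrel) h0
    obtain ⟨j, hj⟩ := hnd
    cases j with
    | none => exact hj ⟨r, hr⟩
    | some i => exact hj (hall i)
  · -- `a_⋆` is a unit
    have hu : IsUnit (a none) := by
      have : a none ∉ IsLocalRing.maximalIdeal O := by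
        rw [(IsDiscreteValuationRing.irreducible_iff_uniformizer ϖ).mp hϖ,
          Ideal.mem_span_singleton]
        exact hdvd
      exact IsLocalRing.notMem_maximalIdeal.mp this
    obtain ⟨u, hu⟩ := hu
    refine ⟨↑u⁻¹ * a (some i), ?_⟩
    have h1 : algebraMap O K (↑u⁻¹ : O) * l = 1 := by
      rw [← hl1, ← hu, ← map_mul, Units.inv_mul, map_one]
    rw [map_mul, hlc, ← mul_assoc, h1, one_mul]

include hϖ hunif hcompat hind in
/-- every element of `B` is integral over `O`. -/
theorem s18vc_isIntegral_of_mem (y : F) (hy : y ∈ B) : IsIntegral O y := by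
  classical
  have hli := s18vc_linearIndependent hϖ B hle red ρ hcompat ξ hind
  set b := s18vcBasis B ξ hli with hb
  -- the `O`-submodule `B` of `F`
  let B' : Submodule O F :=
    { carrier := B
      add_mem' := fun h1 h2 => B.add_mem h1 h2
      zero_mem' := B.zero_mem
      smul_mem' := fun o x hx => by
        rw [Algebra.smul_def]
        exact B.mul_mem (hle o) hx }
  have hN_le : Submodule.span O (Set.range b) ≤ B' := by
    rw [Submodule.span_le]
    rintro _ ⟨i, rfl⟩
    rw [s18vcBasis_apply]
    exact B.pow_mem ξ.2 _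
  have hmemN : ∀ z : F, z ∈ B → z ∈ Submodule.span O (Set.range b) := by
    intro z hz
    rw [← b.sum_repr z]
    refine Submodule.sum_mem _ fun i _ => ?_
    obtain ⟨o, ho⟩ := s18vc_repr_mem hϖ B hle red ρ hunif hcompat ξ hind hli z hz i
    rw [← ho, algebraMap_smul]
    exact Submodule.smul_mem _ _ (Submodule.subset_span ⟨i, rfl⟩)
  refine isIntegral_of_smul_mem_submodule (Submodule.span O (Set.range b)) ?_
    (Submodule.fg_span (Set.finite_range b)) y ?_
  · intro h
    have h1 : (1 : F) ∈ Submodule.span O (Set.range b) := hmemN 1 B.one_mem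
    rw [h, Submodule.mem_bot] at h1
    exact one_ne_zero h1
  · intro z hz
    exact hmemN _ (B.mul_mem hy (hN_le hz))

omit [IsDomain O] [IsDiscreteValuationRing O] [IsFractionRing O K] [FiniteDimensional K F] in
include hle in
/-- a valuation ring containing `O` contains every element integral over `O`. -/
theorem s18vc_mem_of_isIntegral (hval : ∀ x : F, x ∈ B ∨ x⁻¹ ∈ B) (x : F) (hx : IsIntegral O x) :
    x ∈ B := by
  let V : ValuationSubring F := { B with mem_or_inv_mem' := hval }
  let ψ : O →+* ↥V :=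
    { toFun := fun o => ⟨algebraMap O F o, hle o⟩
      map_one' := Subtype.ext (map_one _)
      map_mul' := fun _ _ => Subtype.ext (map_mul _ _ _)
      map_zero' := Subtype.ext (map_zero _)
      map_add' := fun _ _ => Subtype.ext (map_add _ _ _) }
  have h0 : algebraMap O F = (algebraMap ↥V F).comp ψ := RingHom.ext fun _ => rfl
  have h1 : ((algebraMap ↥V F).comp ψ).IsIntegralElem x := h0 ▸ hx
  have h2 : IsIntegral ↥V x := RingHom.IsIntegralElem.of_comp h1
  obtain ⟨y, hy⟩ := IsIntegrallyClosed.isIntegral_iff.mp h2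
  rw [← hy]
  exact y.2

include hϖ hunif hcompat hind in
/-- `B` is the integral closure of `O` in `F`. -/
theorem s18vc_isIntegral_iff (hval : ∀ x : F, x ∈ B ∨ x⁻¹ ∈ B) (x : F) :
    IsIntegral O x ↔ x ∈ B :=
  ⟨s18vc_mem_of_isIntegral B hle hval x,
    s18vc_isIntegral_of_mem hϖ B hle red ρ hunif hcompat ξ hind x⟩

/-! ### The residue extension and the trace -/

include hϖ hunif hcompat hind in
/-- the monic relation `ξ^n = ∑ o_i ξ^i` with coefficients in `O` -/
theorem s18vc_exists_relation :
    ∃ o : Fin (Module.finrank K F) → O,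
      (ξ : F) ^ Module.finrank K F = ∑ i, algebraMap O F (o i) * (ξ : F) ^ (i : ℕ) := by
  have hli := s18vc_linearIndependent hϖ B hle red ρ hcompat ξ hind
  have h := fun i => s18vc_repr_mem hϖ B hle red ρ hunif hcompat ξ hind hli
    ((ξ : F) ^ Module.finrank K F) (B.pow_mem ξ.2 _) i
  choose o ho using h
  refine ⟨o, ?_⟩
  conv_lhs => rw [s18vc_expand B ξ hli ((ξ : F) ^ Module.finrank K F)]
  refine Finset.sum_congr rfl fun i _ => ?_
  rw [IsScalarTower.algebraMap_apply O K F, ho]

include hϖ hunif hcompat hind in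
/-- the minimal polynomial of `ξ̄` over `κ` has degree `n = [F : K]`. -/
theorem s18vc_natDegree_minpoly (hint : IsIntegral κ (red ξ)) :
    (minpoly κ (red ξ)).natDegree = Module.finrank K F := by
  classical
  apply le_antisymm
  · obtain ⟨o, ho⟩ := s18vc_exists_relation hϖ B hle red ρ hunif hcompat ξ hind
    have hqdeg : (∑ i : Fin (Module.finrank K F), C (ρ (o i)) * X ^ (i : ℕ)).degree <
        (Module.finrank K F : WithBot ℕ) := degree_sum_fin_lt _
    have hmonic : (X ^ Module.finrank K F -
        ∑ i : Fin (Module.finrank K F), C (ρ (o i)) * X ^ (i : ℕ)).Monic := monic_X_pow_sub hqdeg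
    have hroot : aeval (red ξ) (X ^ Module.finrank K F -
        ∑ i : Fin (Module.finrank K F), C (ρ (o i)) * X ^ (i : ℕ)) = 0 := by
      have h1 := s18vc_red_expansion B hle red ρ hcompat ξ (ξ ^ Module.finrank K F) o
        (by push_cast; exact ho)
      rw [map_sub, map_pow, aeval_X, map_sum]
      rw [map_pow] at h1
      rw [h1, sub_eq_zero]
      refine Finset.sum_congr rfl fun i _ => ?_
      rw [map_mul, aeval_C, map_pow, aeval_X, Algebra.smul_def]
    have h2 := minpoly.min κ (red ξ) hmonic hroot
    have h3 : (X ^ Module.finrank K F -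
        ∑ i : Fin (Module.finrank K F), C (ρ (o i)) * X ^ (i : ℕ)).degree =
        (Module.finrank K F : WithBot ℕ) := by
      rw [degree_sub_eq_left_of_degree_lt (by rw [degree_X_pow]; exact hqdeg), degree_X_pow]
    rw [h3] at h2
    exact natDegree_le_of_degree_le h2
  · haveI := IntermediateField.adjoin.finiteDimensional hint
    rw [← IntermediateField.adjoin.finrank hint]
    have hliE : LinearIndependent κ (fun i : Fin (Module.finrank K F) =>
        (IntermediateField.AdjoinSimple.gen κ (red ξ)) ^ (i : ℕ)) := by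
      refine LinearIndependent.of_comp (κ⟮red ξ⟯.val.toLinearMap) ?_
      convert hind using 1
      funext i
      simp
    simpa using hliE.fintype_card_le_finrank

include hϖ hunif hcompat hind in
/-- the power basis of the residue extension `κ(ξ̄) / κ` -/
theorem s18vc_exists_resBasis (hint : IsIntegral κ (red ξ)) :
    ∃ b' : Module.Basis (Fin (Module.finrank K F)) κ ↥κ⟮red ξ⟯,
      ∀ i, ((b' i : ↥κ⟮red ξ⟯) : Ω') = red ξ ^ (i : ℕ) := by
  have hliE : LinearIndependent κ (fun i : Fin (Module.finrank K F) =>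
      (IntermediateField.AdjoinSimple.gen κ (red ξ)) ^ (i : ℕ)) := by
    refine LinearIndependent.of_comp (κ⟮red ξ⟯.val.toLinearMap) ?_
    convert hind using 1
    funext i
    simp
  haveI : Nonempty (Fin (Module.finrank K F)) := ⟨⟨0, Module.finrank_pos⟩⟩
  refine ⟨basisOfLinearIndependentOfCardEqFinrank hliE ?_, fun i => ?_⟩
  · rw [Fintype.card_fin, IntermediateField.adjoin.finrank hint,
      s18vc_natDegree_minpoly hϖ B hle red ρ hunif hcompat ξ hind hint]
  · rw [coe_basisOfLinearIndependentOfCardEqFinrank]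
    simp

include hϖ hunif hcompat hind in
/-- the trace commutes with reduction. -/
theorem s18vc_trace_compat
    (hli : LinearIndependent K (fun i : Fin (Module.finrank K F) => (ξ : F) ^ (i : ℕ)))
    (b' : Module.Basis (Fin (Module.finrank K F)) κ ↥κ⟮red ξ⟯)
    (hb' : ∀ i, ((b' i : ↥κ⟮red ξ⟯) : Ω') = red ξ ^ (i : ℕ))
    (z : ↥B) (z' : ↥κ⟮red ξ⟯) (hz' : (z' : Ω') = red z) :
    ∃ o : O, algebraMap O K o = Algebra.trace K F (z : F) ∧
      ρ o = Algebra.trace κ ↥κ⟮red ξ⟯ z' := by
  classical
  set b := s18vcBasis B ξ hli with hb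
  have hbmem : ∀ j, b j ∈ B := fun j => by
    rw [s18vcBasis_apply]
    exact B.pow_mem ξ.2 _
  have hM : ∀ i j, ∃ o : O, algebraMap O K o = b.repr ((z : F) * b j) i := fun i j =>
    s18vc_repr_mem hϖ B hle red ρ hunif hcompat ξ hind hli ((z : F) * b j)
      (B.mul_mem z.2 (hbmem j)) i
  choose M hM using hM
  refine ⟨∑ i, M i i, ?_, ?_⟩
  · rw [Algebra.trace_eq_matrix_trace b, Matrix.trace, map_sum]
    refine Finset.sum_congr rfl fun i _ => ?_
    rw [Matrix.diag_apply, Algebra.leftMulMatrix_eq_repr_mul, hM]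
  · rw [Algebra.trace_eq_matrix_trace b', Matrix.trace, map_sum]
    refine Finset.sum_congr rfl fun i _ => ?_
    rw [Matrix.diag_apply, Algebra.leftMulMatrix_eq_repr_mul]
    have key : ∀ j, z' * b' j = ∑ k, ρ (M k j) • b' k := by
      intro j
      apply Subtype.ext
      rw [IntermediateField.coe_mul, IntermediateField.coe_sum, hz', hb' j]
      have h1 := s18vc_red_expansion B hle red ρ hcompat ξ (z * ξ ^ (j : ℕ)) (fun k => M k j) (by
        push_cast
        rw [← s18vcBasis_apply B ξ hli j]
        conv_lhs => rw [s18vc_expand B ξ hli ((z : F) * b j)]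
        refine Finset.sum_congr rfl fun k _ => ?_
        rw [IsScalarTower.algebraMap_apply O K F, hM])
      rw [map_mul, map_pow] at h1
      rw [h1]
      refine Finset.sum_congr rfl fun k _ => ?_
      rw [IntermediateField.coe_smul, hb' k]
    rw [key i, b'.repr_sum_self]

include hϖ hunif hcompat hind in
/-- (e) `B` is its own dual for the trace form of `F / K`. -/
theorem s18vc_selfDual (hsep : IsSeparable κ (red ξ)) (x : F)
    (hx : ∀ y ∈ B, ∃ o : O, algebraMap O K o = Algebra.trace K F (x * y)) : x ∈ B := by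
  classical
  have hli := s18vc_linearIndependent hϖ B hle red ρ hcompat ξ hind
  have hint : IsIntegral κ (red ξ) := hsep.isIntegral
  haveI hfinE : FiniteDimensional κ ↥κ⟮red ξ⟯ := IntermediateField.adjoin.finiteDimensional hint
  haveI hsepE : Algebra.IsSeparable κ ↥κ⟮red ξ⟯ :=
    (IntermediateField.isSeparable_adjoin_simple_iff_isSeparable κ Ω').mpr hsep
  obtain ⟨b', hb'⟩ := s18vc_exists_resBasis hϖ B hle red ρ hunif hcompat ξ hind hint
  set b := s18vcBasis B ξ hli with hb
  have hbmem : ∀ j, b j ∈ B := fun j => by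
    rw [s18vcBasis_apply]
    exact B.pow_mem ξ.2 _
  -- the Gram matrix over `O`
  have hG : ∀ i j : Fin (Module.finrank K F), ∃ o : O,
      algebraMap O K o = Algebra.trace K F (b i * b j) ∧
        ρ o = Algebra.trace κ ↥κ⟮red ξ⟯ (b' i * b' j) := fun i j =>
    s18vc_trace_compat hϖ B hle red ρ hunif hcompat ξ hind hli b' hb'
      (⟨b i, hbmem i⟩ * ⟨b j, hbmem j⟩) (b' i * b' j) (by
        rw [IntermediateField.coe_mul, hb', hb', map_mul]
        congr 1
        · rw [← map_pow]
          congr 1
          apply Subtype.ext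
          rw [Subring.coe_pow, ← s18vcBasis_apply B ξ hli i]
        · rw [← map_pow]
          congr 1
          apply Subtype.ext
          rw [Subring.coe_pow, ← s18vcBasis_apply B ξ hli j])
  choose G hG1 hG2 using hG
  let GM : Matrix (Fin (Module.finrank K F)) (Fin (Module.finrank K F)) O := Matrix.of G
  have hGK : GM.map (algebraMap O K) = Algebra.traceMatrix K b := by
    ext i j
    rw [Matrix.map_apply, Algebra.traceMatrix_apply, Algebra.traceForm_apply]
    exact hG1 i j
  have hGκ : GM.map ρ = Algebra.traceMatrix κ b' := by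
    ext i j
    rw [Matrix.map_apply, Algebra.traceMatrix_apply, Algebra.traceForm_apply]
    exact hG2 i j
  have hdet : IsUnit GM.det := by
    have h1 : ρ GM.det ≠ 0 := by
      rw [RingHom.map_det, RingHom.mapMatrix_apply, hGκ, ← Algebra.discr_def]
      exact Algebra.discr_not_zero_of_basis κ b'
    have h2 : GM.det ∉ IsLocalRing.maximalIdeal O := by
      rw [(IsDiscreteValuationRing.irreducible_iff_uniformizer ϖ).mp hϖ,
        Ideal.mem_span_singleton]
      rintro ⟨r, hr⟩
      apply h1
      rw [hr, map_mul, s18vc_map_unif B hle red ρ hunif hcompat, zero_mul]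
    exact IsLocalRing.notMem_maximalIdeal.mp h2
  -- the traces `Tr(x b_i)`
  have hv : ∀ i, ∃ o : O, algebraMap O K o = Algebra.trace K F (x * b i) := fun i =>
    hx (b i) (hbmem i)
  choose v hv using hv
  -- `G c = v`
  have hGc : (GM.map (algebraMap O K)).mulVec (fun j => b.repr x j) = (algebraMap O K) ∘ v := by
    funext i
    rw [hGK, Function.comp_apply, hv i, Matrix.mulVec, dotProduct]
    conv_rhs => rw [← b.sum_repr x, Finset.sum_mul, map_sum]
    refine Finset.sum_congr rfl fun j _ => ?_
    rw [Algebra.traceMatrix_apply, Algebra.traceForm_apply, smul_mul_assoc, map_smul, smul_eq_mul,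
      mul_comm (b i) (b j), mul_comm]
  -- invert
  have hinv : GM⁻¹ * GM = 1 := Matrix.nonsing_inv_mul GM hdet
  have hc : (fun j => b.repr x j) = (algebraMap O K) ∘ (GM⁻¹.mulVec v) := by
    have h1 : ((GM⁻¹).map (algebraMap O K)).mulVec ((GM.map (algebraMap O K)).mulVec
        (fun j => b.repr x j)) = fun j => b.repr x j := by
      rw [Matrix.mulVec_mulVec, ← Matrix.map_mul, hinv, Matrix.map_one _ (map_zero _) (map_one _),
        Matrix.one_mulVec]
    rw [← h1, hGc]
    funext i
    rw [Function.comp_apply, RingHom.map_mulVec]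
  -- conclude
  rw [s18vc_expand B ξ hli x]
  refine B.sum_mem fun i _ => B.mul_mem ?_ (B.pow_mem ξ.2 _)
  have h2 := congrFun hc i
  rw [Function.comp_apply] at h2
  show algebraMap K F (b.repr x i) ∈ B
  rw [h2, ← IsScalarTower.algebraMap_apply O K F]
  exact hle _

end Abstract

end Fermat.Agent.S18
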