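import Mathlib
import Fermat.Prelude.Def_ModularCurve_X0ModL
import Fermat.Agent.S18.T.Spec

/-!
# S18, package V : the Gauss valuation on a subfield of `L₀((q))` — definitions

Setting: `A₀` a DVR (uniformiser `ϖ`), `L₀ = Frac A₀`, `k₀ = A₀/𝔪`; `Ω = L₀((q))`.
`s18vIncl : A₀((q)) → L₀((q))` (coefficientwise inclusion), `s18vRes : A₀((q)) → k₀((q))`
(coefficientwise reduction).  For an intermediate field `L₀ ⊆ F ⊆ Ω`:

* `s18vO F`  : the GAUSS RING of `F`: all `x ∈ F` with `x · b = a`, `a, b ∈ A₀((q)) ∩ F`, `b̄ ≠ 0`;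
* `S18VGen F`: `F` is the fraction field of `F ∩ A₀((q))[1/ϖ]` (true for a field generated over
  `L₀` by integral series);
* `S18Coord hϖ F t` : `t ∈ F` is a GOOD COORDINATE: transcendental, `F / L₀(t)` finite, the
  integral closure of the Gauss ring `A₀[t]_(ϖ)` of `L₀(t)` in `F` is the Gauss ring of `F`
  (unique extension of the Gauss valuation), and it is trace-self-dual (unramified).
-/

set_option autoImplicit false
set_option linter.unusedSectionVars false

noncomputable section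

namespace Fermat.Agent.S18

open ModularCurve IsLocalRing Polynomial IntermediateField

section Tower

variable {A₀ : Type*} [CommRing A₀] {L₀ : Type*} [Field L₀] [Algebra A₀ L₀]

/-- The tower `A₀ → L₀ → L₀((q))` for the `Algebra`-induced scalar actions; with it,
`IntermediateField.algebra'` provides `Algebra A₀ ↥F` and `IsScalarTower A₀ L₀ ↥F` for every
intermediate field `L₀ ⊆ F ⊆ L₀((q))`. -/
instance s18vTower : @IsScalarTower A₀ L₀ (LaurentSeries L₀) _ Algebra.toSMul Algebra.toSMul :=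
  IsScalarTower.of_algebraMap_eq fun a => by
    rw [HahnSeries.algebraMap_apply', HahnSeries.algebraMap_apply']
    congr 1
    exact IsScalarTower.algebraMap_apply A₀ L₀ (PowerSeries L₀) a

/-- the coercion of a constant of `A₀` in an intermediate field -/
theorem s18v_coe_algebraMap (F : IntermediateField L₀ (LaurentSeries L₀)) (a : A₀) :
    ((algebraMap A₀ F a : F) : LaurentSeries L₀) =
      algebraMap L₀ (LaurentSeries L₀) (algebraMap A₀ L₀ a) := by
  rw [IsScalarTower.algebraMap_apply A₀ L₀ F]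
  rfl

end Tower

section Defs

variable (A₀ : Type*) [CommRing A₀] [IsLocalRing A₀]
variable (L₀ : Type*) [Field L₀] [Algebra A₀ L₀]

/-- coefficientwise inclusion `A₀((q)) → L₀((q))` -/
abbrev s18vIncl : LaurentSeries A₀ →+* LaurentSeries L₀ := coeffMap (algebraMap A₀ L₀)

/-- coefficientwise reduction `A₀((q)) → k₀((q))` -/
abbrev s18vRes : LaurentSeries A₀ →+* LaurentSeries (ResidueField A₀) := coeffMap (residue A₀)

variable {L₀}

/-- The Gauss ring of an intermediate field `L₀ ⊆ F ⊆ L₀((q))`. -/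
def s18vO (F : IntermediateField L₀ (LaurentSeries L₀)) : Subring F where
  carrier := {x | ∃ a b : LaurentSeries A₀, s18vIncl A₀ L₀ a ∈ F ∧ s18vIncl A₀ L₀ b ∈ F ∧
    s18vRes A₀ b ≠ 0 ∧ (x : LaurentSeries L₀) * s18vIncl A₀ L₀ b = s18vIncl A₀ L₀ a}
  mul_mem' := by
    rintro x y ⟨a, b, ha, hb, hb0, hx⟩ ⟨c, d, hc, hd, hd0, hy⟩
    refine ⟨a * c, b * d, ?_, ?_, ?_, ?_⟩
    · rw [map_mul]; exact mul_mem ha hc
    · rw [map_mul]; exact mul_mem hb hd
    · rw [map_mul]; exact mul_ne_zero hb0 hd0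
    · rw [map_mul, map_mul, ← hx, ← hy]; push_cast; ring
  one_mem' := ⟨1, 1, by rw [map_one]; exact one_mem _, by rw [map_one]; exact one_mem _,
    by rw [map_one]; exact one_ne_zero, by simp⟩
  add_mem' := by
    rintro x y ⟨a, b, ha, hb, hb0, hx⟩ ⟨c, d, hc, hd, hd0, hy⟩
    refine ⟨a * d + c * b, b * d, ?_, ?_, ?_, ?_⟩
    · rw [map_add, map_mul, map_mul]; exact add_mem (mul_mem ha hd) (mul_mem hc hb)
    · rw [map_mul]; exact mul_mem hb hd
    · rw [map_mul]; exact mul_ne_zero hb0 hd0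
    · rw [map_add, map_mul, map_mul, map_mul, ← hx, ← hy]; push_cast; ring
  zero_mem' := ⟨0, 1, by rw [map_zero]; exact zero_mem _, by rw [map_one]; exact one_mem _,
    by rw [map_one]; exact one_ne_zero, by simp⟩
  neg_mem' := by
    rintro x ⟨a, b, ha, hb, hb0, hx⟩
    refine ⟨-a, b, ?_, hb, hb0, ?_⟩
    · rw [map_neg]; exact neg_mem ha
    · rw [map_neg, ← hx]; push_cast; ring

theorem mem_s18vO {F : IntermediateField L₀ (LaurentSeries L₀)} {x : F} :
    x ∈ s18vO A₀ F ↔ ∃ a b : LaurentSeries A₀, s18vIncl A₀ L₀ a ∈ F ∧ s18vIncl A₀ L₀ b ∈ F ∧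
      s18vRes A₀ b ≠ 0 ∧ (x : LaurentSeries L₀) * s18vIncl A₀ L₀ b = s18vIncl A₀ L₀ a := Iff.rfl

/-- `F` is the fraction field of its bounded elements. -/
def S18VGen (F : IntermediateField L₀ (LaurentSeries L₀)) : Prop :=
  ∀ x : F, ∃ a b : LaurentSeries A₀, s18vIncl A₀ L₀ a ∈ F ∧ s18vIncl A₀ L₀ b ∈ F ∧ b ≠ 0 ∧
    (x : LaurentSeries L₀) * s18vIncl A₀ L₀ b = s18vIncl A₀ L₀ a

end Defs

section Coord

variable {A₀ : Type*} [CommRing A₀] [IsDomain A₀] [IsDiscreteValuationRing A₀] [CharZero A₀]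
variable {L₀ : Type*} [Field L₀] [Algebra A₀ L₀] [IsFractionRing A₀ L₀]
variable {ϖ : A₀}

/-- `t ∈ F` is a good coordinate for the Gauss valuation (see the header). -/
structure S18Coord (hϖ : Irreducible ϖ) (F : IntermediateField L₀ (LaurentSeries L₀)) (t : F) :
    Prop where
  transc : Transcendental L₀ t
  fin : FiniteDimensional L₀⟮t⟯ F
  intLoc_eq : s18tIntLoc A₀ t (C ϖ) (s18t_prime_C hϖ) = s18vO A₀ F
  selfDual : S18SelfDual A₀ L₀ t (C ϖ) (s18t_prime_C hϖ)

end Coord

end Fermat.Agent.S18
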