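import Mathlib
import Fermat.Agent.S18.V.Defs

/-!
# S18, package V, row V-a : the Gauss ring basics
-/

set_option autoImplicit false
set_option linter.unusedSectionVars false
set_option synthInstance.maxHeartbeats 400000

noncomputable section

namespace Fermat.Agent.S18

open ModularCurve IsLocalRing Polynomial IntermediateField

variable {A₀ : Type*} [CommRing A₀] [IsDomain A₀] [IsDiscreteValuationRing A₀]
variable {L₀ : Type*} [Field L₀] [Algebra A₀ L₀] [IsFractionRing A₀ L₀]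
variable {ϖ : A₀}

/-! ### Coefficientwise facts -/

theorem s18vg_incl_injective : Function.Injective (s18vIncl A₀ L₀) := by
  intro x y hxy
  ext k
  have := congrArg (fun s => HahnSeries.coeff s k) hxy
  simp only [coeffMap_coeff] at this
  exact IsFractionRing.injective A₀ L₀ this

theorem s18vg_coeff_C_mul {R : Type*} [CommRing R] (c : R) (a : LaurentSeries R) (k : ℤ) :
    (HahnSeries.C c * a).coeff k = c * a.coeff k := by
  rw [HahnSeries.C_mul_eq_smul, HahnSeries.coeff_smul, smul_eq_mul]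

theorem s18vg_incl_C (c : A₀) :
    s18vIncl A₀ L₀ (HahnSeries.C c) = algebraMap L₀ (LaurentSeries L₀) (algebraMap A₀ L₀ c) := by
  rw [algebraMap_laurentSeries_eq_single]
  exact coeffMap_single _ _ _

theorem s18vg_res_C (c : A₀) :
    s18vRes A₀ (HahnSeries.C c) = HahnSeries.C (residue A₀ c) :=
  coeffMap_single _ _ _

theorem s18vg_res_eq_zero_iff (hϖ : Irreducible ϖ) (a : LaurentSeries A₀) :
    s18vRes A₀ a = 0 ↔ ∀ k, ϖ ∣ a.coeff k := by
  constructor
  · intro h k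
    have h1 : residue A₀ (a.coeff k) = 0 := by
      have := congrArg (fun s => HahnSeries.coeff s k) h
      simpa using this
    rw [residue_eq_zero_iff, hϖ.maximalIdeal_eq, Ideal.mem_span_singleton] at h1
    exact h1
  · intro h
    ext k
    rw [coeffMap_coeff, HahnSeries.coeff_zero, residue_eq_zero_iff, hϖ.maximalIdeal_eq,
      Ideal.mem_span_singleton]
    exact h k

/-- coefficientwise division by `c ≠ 0`. -/
theorem s18vg_exists_div (c : A₀) (hc : c ≠ 0) (a : LaurentSeries A₀)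
    (h : ∀ k, c ∣ a.coeff k) : ∃ a' : LaurentSeries A₀, a = HahnSeries.C c * a' := by
  classical
  let g : A₀ → A₀ := fun x => if hx : c ∣ x then Classical.choose hx else 0
  have hg : ∀ x, c ∣ x → x = c * g x := by
    intro x hx
    simp only [g, dif_pos hx]
    exact Classical.choose_spec hx
  have hg0 : g 0 = 0 := by
    have := hg 0 (dvd_zero c)
    rcases mul_eq_zero.mp this.symm with h | h
    · exact absurd h hc
    · exact h
  refine ⟨a.map (⟨g, hg0⟩ : ZeroHom A₀ A₀), ?_⟩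
  ext k
  rw [s18vg_coeff_C_mul, HahnSeries.map_coeff]
  exact hg _ (h k)

/-- a nonzero integral series is `ϖ^n` times a primitive one. -/
theorem s18vg_exists_primitive (hϖ : Irreducible ϖ) (a : LaurentSeries A₀) (ha : a ≠ 0) :
    ∃ (n : ℕ) (a' : LaurentSeries A₀), a = HahnSeries.C (ϖ ^ n) * a' ∧ s18vRes A₀ a' ≠ 0 := by
  classical
  have hϖ0 : ϖ ≠ 0 := hϖ.ne_zero
  -- the set of `n` such that some coefficient is not divisible by `ϖ^(n+1)`
  have hex : ∃ n : ℕ, ∃ k, ¬ ϖ ^ (n + 1) ∣ a.coeff k := by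
    obtain ⟨k, hk⟩ : ∃ k, a.coeff k ≠ 0 := by
      by_contra hall
      push Not at hall
      exact ha (HahnSeries.ext (funext hall))
    obtain ⟨m, u, hu⟩ := IsDiscreteValuationRing.eq_unit_mul_pow_irreducible hk hϖ
    refine ⟨m, k, fun hdvd => ?_⟩
    rw [hu] at hdvd
    obtain ⟨w, hw⟩ := hdvd
    have h1 : ϖ ^ m * (u : A₀) = ϖ ^ m * (ϖ * w) := by
      rw [mul_comm (ϖ ^ m) (u : A₀), hw]; ring
    have h2 := mul_left_cancel₀ (pow_ne_zero m hϖ0) h1
    exact hϖ.not_isUnit (isUnit_of_mul_isUnit_left (h2 ▸ u.isUnit))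
  let n := Nat.find hex
  have hn : ∃ k, ¬ ϖ ^ (n + 1) ∣ a.coeff k := Nat.find_spec hex
  have hall : ∀ k, ϖ ^ n ∣ a.coeff k := by
    intro k
    rcases Nat.eq_zero_or_pos n with h0 | hpos
    · rw [h0, pow_zero]; exact one_dvd _
    · have hmin := Nat.find_min hex (m := n - 1) (by omega)
      push Not at hmin
      have := hmin k
      rwa [Nat.sub_add_cancel hpos] at this
  obtain ⟨a', ha'⟩ := s18vg_exists_div (ϖ ^ n) (pow_ne_zero n hϖ0) a hall
  refine ⟨n, a', ha', fun hres => ?_⟩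
  rw [s18vg_res_eq_zero_iff hϖ] at hres
  obtain ⟨k, hk⟩ := hn
  apply hk
  rw [ha', s18vg_coeff_C_mul, pow_succ]
  exact mul_dvd_mul_left _ (hres k)


/-! ### The Gauss ring -/

variable (F : IntermediateField L₀ (LaurentSeries L₀))

theorem s18vg_coe_unif (c : A₀) :
    ((algebraMap A₀ F c : F) : LaurentSeries L₀) = s18vIncl A₀ L₀ (HahnSeries.C c) := by
  rw [s18v_coe_algebraMap, s18vg_incl_C]

theorem s18vg_mem_of_C_mul (c : A₀) (hc : c ≠ 0) (a' : LaurentSeries A₀)
    (h : s18vIncl A₀ L₀ (HahnSeries.C c * a') ∈ F) : s18vIncl A₀ L₀ a' ∈ F := by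
  rw [map_mul, s18vg_incl_C] at h
  have hc' : algebraMap L₀ (LaurentSeries L₀) (algebraMap A₀ L₀ c) ≠ 0 := by
    rw [Ne, map_eq_zero_iff _ (algebraMap L₀ (LaurentSeries L₀)).injective,
      map_eq_zero_iff _ (IsFractionRing.injective A₀ L₀)]
    exact hc
  have h2 : s18vIncl A₀ L₀ a' =
      (algebraMap L₀ (LaurentSeries L₀) (algebraMap A₀ L₀ c))⁻¹ *
        (algebraMap L₀ (LaurentSeries L₀) (algebraMap A₀ L₀ c) * s18vIncl A₀ L₀ a') := by
    rw [← mul_assoc, inv_mul_cancel₀ hc', one_mul]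
  rw [h2]
  exact mul_mem (inv_mem (F.algebraMap_mem _)) h

theorem s18vg_C_mem (c : A₀) : s18vIncl A₀ L₀ (HahnSeries.C c) ∈ F := by
  rw [s18vg_incl_C]; exact F.algebraMap_mem _

theorem s18v_dvd_iff' (hϖ : Irreducible ϖ)
    (x : F) (a b : LaurentSeries A₀) (ha : s18vIncl A₀ L₀ a ∈ F) (hb : s18vIncl A₀ L₀ b ∈ F)
    (hb0 : s18vRes A₀ b ≠ 0) (hx : (x : LaurentSeries L₀) * s18vIncl A₀ L₀ b = s18vIncl A₀ L₀ a) :
    (∃ y ∈ s18vO A₀ F, x = algebraMap A₀ F ϖ * y) ↔ s18vRes A₀ a = 0 := by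
  constructor
  · rintro ⟨y, ⟨c, d, hc, hd, hd0, hy⟩, rfl⟩
    have h1 : s18vIncl A₀ L₀ (a * d) = s18vIncl A₀ L₀ (HahnSeries.C ϖ * c * b) := by
      rw [map_mul, map_mul, map_mul, ← hx, ← hy, ← s18vg_coe_unif F ϖ]
      push_cast
      ring
    have h2 := s18vg_incl_injective h1
    have h3 := congrArg (s18vRes A₀) h2
    rw [map_mul, map_mul, map_mul, s18vg_res_C, (residue_eq_zero_iff ϖ).mpr
      (by rw [hϖ.maximalIdeal_eq]; exact Ideal.mem_span_singleton_self ϖ), map_zero, zero_mul,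
      zero_mul] at h3
    exact (mul_eq_zero.mp h3).resolve_right hd0
  · intro h0
    rw [s18vg_res_eq_zero_iff hϖ] at h0
    obtain ⟨a', ha'⟩ := s18vg_exists_div ϖ hϖ.ne_zero a h0
    have ha'F : s18vIncl A₀ L₀ a' ∈ F := s18vg_mem_of_C_mul F ϖ hϖ.ne_zero a' (ha' ▸ ha)
    have hbne : s18vIncl A₀ L₀ b ≠ 0 := by
      intro hb00
      apply hb0
      have : b = 0 := s18vg_incl_injective (by rw [hb00, map_zero])
      rw [this, map_zero]
    -- `y = a'/b`
    refine ⟨⟨s18vIncl A₀ L₀ a' * (s18vIncl A₀ L₀ b)⁻¹, mul_mem ha'F (inv_mem hb)⟩,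
      ⟨a', b, ha'F, hb, hb0, ?_⟩, ?_⟩
    · show s18vIncl A₀ L₀ a' * (s18vIncl A₀ L₀ b)⁻¹ * s18vIncl A₀ L₀ b = s18vIncl A₀ L₀ a'
      rw [mul_assoc, inv_mul_cancel₀ hbne, mul_one]
    · apply Subtype.ext
      have : (x : LaurentSeries L₀) = s18vIncl A₀ L₀ a * (s18vIncl A₀ L₀ b)⁻¹ := by
        rw [← hx, mul_assoc, mul_inv_cancel₀ hbne, mul_one]
      rw [this, ha', map_mul]
      push_cast
      rw [s18vg_coe_unif]
      ring

theorem s18v_dvd_or_inv_mem' (hϖ : Irreducible ϖ)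
    (x : F) (hx : x ∈ s18vO A₀ F) :
    (∃ y ∈ s18vO A₀ F, x = algebraMap A₀ F ϖ * y) ∨ x⁻¹ ∈ s18vO A₀ F := by
  obtain ⟨a, b, ha, hb, hb0, hxab⟩ := hx
  by_cases h0 : s18vRes A₀ a = 0
  · left
    exact (s18v_dvd_iff' F hϖ x a b ha hb hb0 hxab).mpr h0
  · right
    have hane : s18vIncl A₀ L₀ a ≠ 0 := by
      intro ha0
      apply h0
      have : a = 0 := s18vg_incl_injective (by rw [ha0, map_zero])
      rw [this, map_zero]
    have hxne : (x : LaurentSeries L₀) ≠ 0 := by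
      intro hx0
      rw [hx0, zero_mul] at hxab
      exact hane hxab.symm
    refine ⟨b, a, hb, ha, h0, ?_⟩
    push_cast
    rw [← hxab, ← mul_assoc, inv_mul_cancel₀ hxne, one_mul]

theorem s18v_unif_not_unit' (hϖ : Irreducible ϖ) :
    (algebraMap A₀ F ϖ)⁻¹ ∉ s18vO A₀ F := by
  rintro ⟨a, b, ha, hb, hb0, hx⟩
  push_cast at hx
  rw [s18vg_coe_unif] at hx
  have hϖne : s18vIncl A₀ L₀ (HahnSeries.C ϖ) ≠ 0 := by
    intro h0
    have : (HahnSeries.C ϖ : LaurentSeries A₀) = 0 := s18vg_incl_injective (by rw [h0, map_zero])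
    have h1 := congrArg (fun s => HahnSeries.coeff s 0) this
    simp at h1
    exact hϖ.ne_zero h1
  have h1 : s18vIncl A₀ L₀ b = s18vIncl A₀ L₀ (HahnSeries.C ϖ * a) := by
    rw [map_mul, ← hx, ← mul_assoc, mul_inv_cancel₀ hϖne, one_mul]
  have h2 := s18vg_incl_injective h1
  apply hb0
  rw [h2, map_mul, s18vg_res_C, (residue_eq_zero_iff ϖ).mpr
    (by rw [hϖ.maximalIdeal_eq]; exact Ideal.mem_span_singleton_self ϖ), map_zero, zero_mul]

theorem s18v_mem_or_inv_mem' (hϖ : Irreducible ϖ)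
    (hF : S18VGen A₀ F) (x : F) : x ∈ s18vO A₀ F ∨ x⁻¹ ∈ s18vO A₀ F := by
  obtain ⟨a, b, ha, hb, hb0, hx⟩ := hF x
  by_cases ha0 : a = 0
  · left
    have hbne : s18vIncl A₀ L₀ b ≠ 0 := fun h => hb0 (s18vg_incl_injective (by rw [h, map_zero]))
    have : x = 0 := by
      apply Subtype.ext
      rw [ha0, map_zero] at hx
      exact (mul_eq_zero.mp hx).resolve_right hbne
    rw [this]; exact Subring.zero_mem _
  obtain ⟨m, a', ha', hra⟩ := s18vg_exists_primitive hϖ a ha0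
  obtain ⟨n, b', hb', hrb⟩ := s18vg_exists_primitive hϖ b hb0
  have ha'F : s18vIncl A₀ L₀ a' ∈ F :=
    s18vg_mem_of_C_mul F _ (pow_ne_zero m hϖ.ne_zero) a' (ha' ▸ ha)
  have hb'F : s18vIncl A₀ L₀ b' ∈ F :=
    s18vg_mem_of_C_mul F _ (pow_ne_zero n hϖ.ne_zero) b' (hb' ▸ hb)
  have hCn : s18vIncl A₀ L₀ (HahnSeries.C (ϖ ^ n)) ≠ 0 := by
    intro h0
    have : (HahnSeries.C (ϖ ^ n) : LaurentSeries A₀) = 0 :=
      s18vg_incl_injective (by rw [h0, map_zero])
    have h1 := congrArg (fun s => HahnSeries.coeff s 0) this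
    simp at h1
    exact hϖ.ne_zero h1.1
  have hCm : s18vIncl A₀ L₀ (HahnSeries.C (ϖ ^ m)) ≠ 0 := by
    intro h0
    have : (HahnSeries.C (ϖ ^ m) : LaurentSeries A₀) = 0 :=
      s18vg_incl_injective (by rw [h0, map_zero])
    have h1 := congrArg (fun s => HahnSeries.coeff s 0) this
    simp at h1
    exact hϖ.ne_zero h1.1
  rw [ha', hb', map_mul, map_mul] at hx
  rcases le_total n m with hnm | hmn
  · left
    refine ⟨HahnSeries.C (ϖ ^ (m - n)) * a', b', ?_, hb'F, hrb, ?_⟩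
    · rw [map_mul]; exact mul_mem (s18vg_C_mem F _) ha'F
    · have e : (HahnSeries.C (ϖ ^ m) : LaurentSeries A₀) =
          HahnSeries.C (ϖ ^ n) * HahnSeries.C (ϖ ^ (m - n)) := by
        rw [← map_mul, ← pow_add, Nat.add_sub_cancel' hnm]
      rw [e, map_mul] at hx
      have h1 : s18vIncl A₀ L₀ (HahnSeries.C (ϖ ^ n)) * ((x : LaurentSeries L₀) *
          s18vIncl A₀ L₀ b') = s18vIncl A₀ L₀ (HahnSeries.C (ϖ ^ n)) *
            (s18vIncl A₀ L₀ (HahnSeries.C (ϖ ^ (m - n))) * s18vIncl A₀ L₀ a') := by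
        rw [← mul_assoc, ← mul_assoc, ← hx]; ring
      rw [map_mul]
      exact mul_left_cancel₀ hCn h1
  · right
    have hxne : (x : LaurentSeries L₀) ≠ 0 := by
      intro hx0
      rw [hx0, zero_mul] at hx
      have ha'ne : s18vIncl A₀ L₀ a' ≠ 0 := fun h =>
        hra (by rw [s18vg_incl_injective (by rw [h, map_zero] : s18vIncl A₀ L₀ a' = s18vIncl A₀ L₀ 0),
          map_zero])
      exact mul_ne_zero hCm ha'ne hx.symm
    refine ⟨HahnSeries.C (ϖ ^ (n - m)) * b', a', ?_, ha'F, hra, ?_⟩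
    · rw [map_mul]; exact mul_mem (s18vg_C_mem F _) hb'F
    · have e : (HahnSeries.C (ϖ ^ n) : LaurentSeries A₀) =
          HahnSeries.C (ϖ ^ m) * HahnSeries.C (ϖ ^ (n - m)) := by
        rw [← map_mul, ← pow_add, Nat.add_sub_cancel' hmn]
      rw [e, map_mul] at hx
      have h1 : s18vIncl A₀ L₀ (HahnSeries.C (ϖ ^ m)) * ((x : LaurentSeries L₀) *
          (s18vIncl A₀ L₀ (HahnSeries.C (ϖ ^ (n - m))) * s18vIncl A₀ L₀ b')) =
          s18vIncl A₀ L₀ (HahnSeries.C (ϖ ^ m)) * s18vIncl A₀ L₀ a' := by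
        rw [← hx]; ring
      have h2 := mul_left_cancel₀ hCm h1
      push_cast
      rw [map_mul, ← h2, ← mul_assoc, inv_mul_cancel₀ hxne, one_mul]

/-! ### Polynomials in a series with a pole -/

variable [CharZero A₀]

/-- a nonzero polynomial over a domain evaluated at a Laurent series of negative order is nonzero,
of order `natDegree • order`. -/
theorem s18vg_eval_pole {k : Type*} [CommRing k] [IsDomain k] (τ : LaurentSeries k)
    (hτ : τ.order < 0) :
    ∀ (n : ℕ) (c : k[X]), c.natDegree = n → c ≠ 0 →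
      eval₂ HahnSeries.C τ c ≠ 0 ∧ (eval₂ HahnSeries.C τ c).order = n • τ.order := by
  have hτ0 : τ ≠ 0 := by
    rintro rfl
    simp at hτ
  intro n
  induction n with
  | zero =>
    intro c hc hc0
    rw [Polynomial.eq_C_of_natDegree_eq_zero hc] at hc0 ⊢
    rw [eval₂_C]
    have : c.coeff 0 ≠ 0 := fun h => hc0 (by rw [h, map_zero])
    refine ⟨fun h => this ?_, by rw [HahnSeries.order_C, zero_nsmul]⟩
    have := congrArg (fun s => HahnSeries.coeff s 0) h
    simpa using this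
  | succ n ih =>
    intro c hc hc0
    have hdiv : c.divX.natDegree = n := by rw [Polynomial.natDegree_divX_eq_natDegree_tsub_one, hc]; rfl
    have hdiv0 : c.divX ≠ 0 := by
      intro h
      rw [Polynomial.divX_eq_zero_iff] at h
      rw [h, natDegree_C] at hc
      omega
    obtain ⟨h1, h2⟩ := ih c.divX hdiv hdiv0
    have hc' : c = c.divX * X + C (c.coeff 0) := (Polynomial.divX_mul_X_add c).symm
    rw [hc', eval₂_add, eval₂_mul, eval₂_X, eval₂_C]
    set x := eval₂ HahnSeries.C τ c.divX * τ with hx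
    have hx0 : x ≠ 0 := mul_ne_zero h1 hτ0
    have hxo : x.order = (n + 1) • τ.order := by
      rw [hx, HahnSeries.order_mul h1 hτ0, h2, succ_nsmul]
    have hlt : x.orderTop < (HahnSeries.C (c.coeff 0) : LaurentSeries k).orderTop := by
      rw [← HahnSeries.order_eq_orderTop_of_ne_zero hx0, hxo]
      by_cases ha : c.coeff 0 = 0
      · rw [ha, map_zero, HahnSeries.orderTop_zero]; exact WithTop.coe_lt_top _
      · have hC : (HahnSeries.C (c.coeff 0) : LaurentSeries k) ≠ 0 := by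
          intro h
          have := congrArg (fun s => HahnSeries.coeff s 0) h
          simp at this
          exact ha this
        rw [← HahnSeries.order_eq_orderTop_of_ne_zero hC, HahnSeries.order_C, WithTop.coe_lt_coe]
        have : (n + 1) • τ.order = (n + 1 : ℤ) * τ.order := by simp
        rw [this]
        nlinarith
    have hsum := HahnSeries.orderTop_add_eq_left hlt
    have hne : x + HahnSeries.C (c.coeff 0) ≠ 0 := by
      intro h
      rw [h, HahnSeries.orderTop_zero] at hsum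
      exact HahnSeries.orderTop_ne_top.mpr hx0 hsum.symm
    refine ⟨hne, ?_⟩
    have := HahnSeries.order_eq_orderTop_of_ne_zero hne
    rw [hsum, ← HahnSeries.order_eq_orderTop_of_ne_zero hx0] at this
    rw [WithTop.coe_eq_coe.mp this, hxo]


theorem s18vg_res_eval (τ : LaurentSeries A₀) (b : A₀[X]) :
    s18vRes A₀ (eval₂ HahnSeries.C τ b) =
      eval₂ HahnSeries.C (s18vRes A₀ τ) (b.map (residue A₀)) := by
  rw [Polynomial.hom_eval₂, Polynomial.eval₂_map]
  congr 1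
  ext c : 1
  exact s18vg_res_C c

theorem s18vg_coe_aeval (t : F) (τ : LaurentSeries A₀)
    (ht : (t : LaurentSeries L₀) = s18vIncl A₀ L₀ τ) (b : A₀[X]) :
    ((aeval t b : F) : LaurentSeries L₀) = s18vIncl A₀ L₀ (eval₂ HahnSeries.C τ b) := by
  induction b using Polynomial.induction_on' with
  | add p q hp hq =>
    simp only [map_add, eval₂_add]
    push_cast
    rw [hp, hq]
  | monomial n a =>
    simp only [aeval_monomial, eval₂_monomial, map_mul, map_pow]
    push_cast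
    rw [ht, s18vg_coe_unif]

theorem s18vg_map_ne_zero (hϖ : Irreducible ϖ) (c : A₀[X]) (hc : ¬ C ϖ ∣ c) :
    c.map (residue A₀) ≠ 0 := by
  intro h
  apply hc
  rw [Polynomial.C_dvd_iff_dvd_coeff]
  intro i
  have := congrArg (fun p => Polynomial.coeff p i) h
  simp only [coeff_map, coeff_zero] at this
  rw [residue_eq_zero_iff, hϖ.maximalIdeal_eq, Ideal.mem_span_singleton] at this
  exact this

/-- core nonvanishing: a polynomial not divisible by `ϖ` in a series with a pole mod `ϖ` has nonzero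
reduction. -/
theorem s18vg_res_eval_ne_zero (hϖ : Irreducible ϖ) (τ : LaurentSeries A₀)
    (hτ : (s18vRes A₀ τ).order < 0) (c : A₀[X]) (hc : ¬ C ϖ ∣ c) :
    s18vRes A₀ (eval₂ HahnSeries.C τ c) ≠ 0 := by
  rw [s18vg_res_eval]
  exact (s18vg_eval_pole _ hτ _ _ rfl (s18vg_map_ne_zero hϖ c hc)).1

/-- `t` is an integral series with a pole modulo `ϖ`. -/
def S18VPole (t : F) (τ : LaurentSeries A₀) : Prop :=
  (t : LaurentSeries L₀) = s18vIncl A₀ L₀ τ ∧ (s18vRes A₀ τ).order < 0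

theorem s18vg_aeval_ne_zero (hϖ : Irreducible ϖ) (t : F) (τ : LaurentSeries A₀)
    (ht : S18VPole F t τ) (c : A₀[X]) (hc : ¬ C ϖ ∣ c) : aeval t c ≠ 0 := by
  intro h
  have h1 := s18vg_coe_aeval F t τ ht.1 c
  rw [h] at h1
  have h2 : eval₂ HahnSeries.C τ c = 0 :=
    s18vg_incl_injective (by rw [map_zero]; exact h1.symm)
  exact s18vg_res_eval_ne_zero hϖ τ ht.2 c hc (by rw [h2, map_zero])

theorem s18v_loc_le' (hϖ : Irreducible ϖ) (t : F)
    (τ : LaurentSeries A₀) (ht : S18VPole F t τ) (x : F)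
    (hx : x ∈ s18tLoc A₀ t (C ϖ) (s18t_prime_C hϖ)) : x ∈ s18vO A₀ F := by
  obtain ⟨a, b, hb, hxab⟩ := hx
  refine ⟨eval₂ HahnSeries.C τ a, eval₂ HahnSeries.C τ b, ?_, ?_,
    s18vg_res_eval_ne_zero hϖ τ ht.2 b hb, ?_⟩
  · rw [← s18vg_coe_aeval F t τ ht.1]; exact (aeval t a).2
  · rw [← s18vg_coe_aeval F t τ ht.1]; exact (aeval t b).2
  · rw [← s18vg_coe_aeval F t τ ht.1, ← s18vg_coe_aeval F t τ ht.1, ← hxab]
    push_cast
    rfl

theorem s18vg_algebraMap_injective : Function.Injective (algebraMap A₀ F) := by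
  rw [IsScalarTower.algebraMap_eq A₀ L₀ F]
  exact (algebraMap L₀ F).injective.comp (IsFractionRing.injective A₀ L₀)

/-- primitive part of a polynomial. -/
theorem s18vg_poly_primitive (hϖ : Irreducible ϖ) (p : A₀[X]) (hp : p ≠ 0) :
    ∃ (n : ℕ) (p' : A₀[X]), ¬ C ϖ ∣ p' ∧ p = C ϖ ^ n * p' :=
  WfDvdMonoid.max_power_factor hp (s18t_prime_C hϖ).irreducible

theorem s18v_transcendental' (hϖ : Irreducible ϖ) (t : F)
    (τ : LaurentSeries A₀) (ht : S18VPole F t τ) : Transcendental L₀ t := by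
  intro halg
  rw [← IsFractionRing.isAlgebraic_iff A₀ L₀ F] at halg
  obtain ⟨p, hp0, hp⟩ := halg
  obtain ⟨n, p', hp', rfl⟩ := s18vg_poly_primitive hϖ p hp0
  rw [map_mul, map_pow, aeval_C] at hp
  rcases mul_eq_zero.mp hp with h | h
  · have : algebraMap A₀ F ϖ ≠ 0 := by
      rw [Ne, map_eq_zero_iff _ (s18vg_algebraMap_injective F)]
      exact hϖ.ne_zero
    exact pow_ne_zero n this h
  · exact s18vg_aeval_ne_zero F hϖ t τ ht p' hp' h

theorem s18vg_algebraMap_mem (c : A₀) : algebraMap A₀ F c ∈ s18vO A₀ F := by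
  refine ⟨HahnSeries.C c, 1, s18vg_C_mem F c, by rw [map_one]; exact one_mem _,
    by rw [map_one]; exact one_ne_zero, ?_⟩
  rw [map_one, mul_one, s18vg_coe_unif]

/-- elements of `L₀(t)` are quotients of polynomials over `A₀`. -/
theorem s18vg_exists_frac (t x : F) (hxt : x ∈ L₀⟮t⟯) :
    ∃ r s : A₀[X], aeval t s ≠ 0 ∧ x * aeval t s = aeval t r := by
  rw [IntermediateField.mem_adjoin_simple_iff] at hxt
  obtain ⟨r, s, hrs⟩ := hxt
  by_cases hs : aeval t s = 0
  · refine ⟨0, 1, by rw [map_one]; exact one_ne_zero, ?_⟩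
    rw [hs, div_zero] at hrs
    rw [hrs, zero_mul, map_zero]
  obtain ⟨br, hbrM, hbr⟩ := IsLocalization.integerNormalization_spec (nonZeroDivisors A₀) r
  obtain ⟨bs, hbsM, hbs⟩ := IsLocalization.integerNormalization_spec (nonZeroDivisors A₀) s
  have key : ∀ (p : L₀[X]) (p₁ : A₀[X]) (b : A₀),
      p₁.map (algebraMap A₀ L₀) = b • p → aeval t p₁ = algebraMap A₀ F b * aeval t p := by
    intro p p₁ b h
    rw [← Polynomial.aeval_map_algebraMap L₀ t p₁, h, ← IsScalarTower.algebraMap_smul L₀ b p,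
      map_smul, Algebra.smul_def, ← IsScalarTower.algebraMap_apply]
  have hr := key r _ _ hbr
  have hs' := key s _ _ hbs
  have hbr0 : algebraMap A₀ F (br : A₀) ≠ 0 := by
    rw [Ne, map_eq_zero_iff _ (s18vg_algebraMap_injective F)]
    exact nonZeroDivisors.ne_zero hbrM
  have hbs0 : algebraMap A₀ F (bs : A₀) ≠ 0 := by
    rw [Ne, map_eq_zero_iff _ (s18vg_algebraMap_injective F)]
    exact nonZeroDivisors.ne_zero hbsM
  refine ⟨C (bs : A₀) * IsLocalization.integerNormalization (nonZeroDivisors A₀) r,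
    C (br : A₀) * IsLocalization.integerNormalization (nonZeroDivisors A₀) s, ?_, ?_⟩
  · rw [map_mul, aeval_C, hs']
    exact mul_ne_zero hbr0 (mul_ne_zero hbs0 hs)
  · rw [map_mul, map_mul, aeval_C, aeval_C, hs', hr, hrs]
    field_simp

theorem s18v_mem_loc_of_mem' (hϖ : Irreducible ϖ) (t : F)
    (τ : LaurentSeries A₀) (ht : S18VPole F t τ) (x : F) (hx : x ∈ s18vO A₀ F)
    (hxt : x ∈ L₀⟮t⟯) : x ∈ s18tLoc A₀ t (C ϖ) (s18t_prime_C hϖ) := by
  obtain ⟨r, s, hs, hxrs⟩ := s18vg_exists_frac (A₀ := A₀) F t x hxt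
  have hs0 : s ≠ 0 := by rintro rfl; exact hs (map_zero _)
  by_cases hr0 : r = 0
  · rw [hr0, map_zero] at hxrs
    rw [(mul_eq_zero.mp hxrs).resolve_right hs]
    exact Subring.zero_mem _
  obtain ⟨n, s', hs', rfl⟩ := s18vg_poly_primitive hϖ s hs0
  obtain ⟨m, r', hr', rfl⟩ := s18vg_poly_primitive hϖ r hr0
  have hπ0 : algebraMap A₀ F ϖ ≠ 0 := by
    rw [Ne, map_eq_zero_iff _ (s18vg_algebraMap_injective F)]
    exact hϖ.ne_zero
  have hS := s18vg_aeval_ne_zero F hϖ t τ ht s' hs'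
  have hR := s18vg_aeval_ne_zero F hϖ t τ ht r' hr'
  rw [map_mul, map_mul, map_pow, map_pow, aeval_C] at hxrs
  rcases le_or_gt n m with hnm | hmn
  · refine ⟨C ϖ ^ (m - n) * r', s', hs', ?_⟩
    rw [map_mul, map_pow, aeval_C]
    have h1 : algebraMap A₀ F ϖ ^ n * (x * aeval t s') =
        algebraMap A₀ F ϖ ^ n * (algebraMap A₀ F ϖ ^ (m - n) * aeval t r') := by
      have e : algebraMap A₀ F ϖ ^ m = algebraMap A₀ F ϖ ^ n * algebraMap A₀ F ϖ ^ (m - n) := by
        rw [← pow_add, Nat.add_sub_cancel' hnm]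
      rw [e] at hxrs
      linear_combination hxrs
    exact mul_left_cancel₀ (pow_ne_zero n hπ0) h1
  · exfalso
    obtain ⟨k, hk⟩ : ∃ k, n = m + (k + 1) := ⟨n - m - 1, by omega⟩
    have hz : aeval t s' / aeval t r' ∈ s18vO A₀ F := by
      apply s18v_loc_le' F hϖ t τ ht
      exact ⟨s', r', hr', by rw [div_mul_cancel₀ _ hR]⟩
    apply s18v_unif_not_unit' F hϖ
    have h1 : (algebraMap A₀ F ϖ)⁻¹ =
        algebraMap A₀ F ϖ ^ k * (x * (aeval t s' / aeval t r')) := by
      rw [hk, pow_add, pow_succ] at hxrs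
      have h2 : algebraMap A₀ F ϖ ^ m * (x * (algebraMap A₀ F ϖ ^ k * algebraMap A₀ F ϖ *
          aeval t s')) = algebraMap A₀ F ϖ ^ m * aeval t r' := by
        rw [← hxrs]; ring
      have h3 := mul_left_cancel₀ (pow_ne_zero m hπ0) h2
      have h4 : algebraMap A₀ F ϖ * (algebraMap A₀ F ϖ ^ k * (x * (aeval t s' / aeval t r'))) = 1 := by
        field_simp
        linear_combination h3
      exact (eq_inv_of_mul_eq_one_right h4).symm
    rw [h1]
    exact Subring.mul_mem _ (Subring.pow_mem _ (s18vg_algebraMap_mem F ϖ) k)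
      (Subring.mul_mem _ hx hz)

/-! ### The modular function field is generated by integral series -/

omit [CharZero A₀] in
theorem s18vg_incl_ne_zero {b : LaurentSeries A₀} (hb : b ≠ 0) : s18vIncl A₀ L₀ b ≠ 0 :=
  fun h => hb (s18vg_incl_injective (by rw [h, map_zero]))

omit [CharZero A₀] in
theorem s18v_gen_full' (M : ℕ) [NeZero M] : S18VGen A₀ (modularFunctionFieldFullC L₀ M) := by
  intro x
  obtain ⟨x, hx⟩ := x
  show ∃ a b : LaurentSeries A₀, s18vIncl A₀ L₀ a ∈ modularFunctionFieldFullC L₀ M ∧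
    s18vIncl A₀ L₀ b ∈ modularFunctionFieldFullC L₀ M ∧ b ≠ 0 ∧
      x * s18vIncl A₀ L₀ b = s18vIncl A₀ L₀ a
  unfold modularFunctionFieldFullC at hx
  induction hx using IntermediateField.adjoin_induction with
  | mem x hx =>
    obtain ⟨d, hd, hdM, rfl⟩ := hx
    have := hd
    have e : s18vIncl A₀ L₀ (qExpand A₀ d (jqModC A₀)) = qExpand L₀ d (jqModC L₀) := by
      rw [coeffMap_qExpand, coeffMap_jqModC]
    refine ⟨qExpand A₀ d (jqModC A₀), 1, ?_, by rw [map_one]; exact one_mem _, one_ne_zero, ?_⟩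
    · rw [e]; exact jqModCd_mem_full L₀ M hdM
    · rw [map_one, mul_one, e]
  | algebraMap c =>
    obtain ⟨a₀, b₀, hb₀, rfl⟩ := IsFractionRing.div_surjective (A := A₀) c
    have hb₀' : b₀ ≠ 0 := nonZeroDivisors.ne_zero hb₀
    refine ⟨HahnSeries.C a₀, HahnSeries.C b₀, s18vg_C_mem _ a₀, s18vg_C_mem _ b₀, ?_, ?_⟩
    · intro h
      have := congrArg (fun s => HahnSeries.coeff s 0) h
      simp at this
      exact hb₀' this
    · rw [s18vg_incl_C, s18vg_incl_C, ← map_mul, div_mul_cancel₀]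
      rw [Ne, map_eq_zero_iff _ (IsFractionRing.injective A₀ L₀)]
      exact hb₀'
  | add x y hx hy hx' hy' =>
    obtain ⟨a, b, ha, hb, hb0, hxab⟩ := hx'
    obtain ⟨c, d, hc, hd, hd0, hycd⟩ := hy'
    refine ⟨a * d + c * b, b * d, ?_, ?_, mul_ne_zero hb0 hd0, ?_⟩
    · rw [map_add, map_mul, map_mul]; exact add_mem (mul_mem ha hd) (mul_mem hc hb)
    · rw [map_mul]; exact mul_mem hb hd
    · rw [map_add, map_mul, map_mul, map_mul, ← hxab, ← hycd]; ring
  | inv x hx hx' =>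
    obtain ⟨a, b, ha, hb, hb0, hxab⟩ := hx'
    by_cases ha0 : a = 0
    · have hx0 : x = 0 := by
        rw [ha0, map_zero] at hxab
        exact (mul_eq_zero.mp hxab).resolve_right (s18vg_incl_ne_zero hb0)
      refine ⟨0, 1, by rw [map_zero]; exact zero_mem _, by rw [map_one]; exact one_mem _,
        one_ne_zero, ?_⟩
      rw [hx0, inv_zero, zero_mul, map_zero]
    · have hx0 : x ≠ 0 := by
        rintro rfl
        rw [zero_mul] at hxab
        exact s18vg_incl_ne_zero ha0 hxab.symm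
      refine ⟨b, a, hb, ha, ha0, ?_⟩
      rw [← hxab, ← mul_assoc, inv_mul_cancel₀ hx0, one_mul]
  | mul x y hx hy hx' hy' =>
    obtain ⟨a, b, ha, hb, hb0, hxab⟩ := hx'
    obtain ⟨c, d, hc, hd, hd0, hycd⟩ := hy'
    refine ⟨a * c, b * d, ?_, ?_, mul_ne_zero hb0 hd0, ?_⟩
    · rw [map_mul]; exact mul_mem ha hc
    · rw [map_mul]; exact mul_mem hb hd
    · rw [map_mul, map_mul, ← hxab, ← hycd]; ring

omit [CharZero A₀] in
theorem s18v_pole_j' (M : ℕ) [NeZero M] :
    S18VPole (A₀ := A₀) (modularFunctionFieldFullC L₀ M) ⟨jqModC L₀, jqModC_mem_full L₀ M⟩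
      (jqModC A₀) := by
  refine ⟨(coeffMap_jqModC _).symm, ?_⟩
  have h1 : s18vRes A₀ (jqModC A₀) = jqModC (ResidueField A₀) := coeffMap_jqModC _
  rw [h1]
  have h2 : (jqModC (ResidueField A₀)).order ≤ -1 :=
    HahnSeries.order_le_of_coeff_ne_zero (by rw [coeff_jqModC_neg_one]; exact one_ne_zero)
  omega

end Fermat.Agent.S18
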