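import Mathlib
import Fermat.Agent.S18.V.Defs
import Fermat.Agent.S18.V.Gauss
import Fermat.Agent.S18.V.CoordAbstract

/-!
# S18, package V, leaf (V-d,e): `s18v_coord_of_powerBasis`

The reduction map `s18vcRed : s18vO F → k₀((q))`, `x = a/b ↦ ā/b̄`, and the application of the
abstract coordinate theorem (`V/CoordAbstract.lean`) to `O = A₀[t]_(ϖ)`, `K = L₀(t)`, `B = s18vO F`,
`κ = k₀(t̄)`.
-/

set_option autoImplicit false
set_option linter.unusedSectionVars false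
set_option synthInstance.maxHeartbeats 400000

noncomputable section

namespace Fermat.Agent.S18

open ModularCurve IsLocalRing Polynomial IntermediateField
open scoped IntermediateField.algebraAdjoinAdjoin

variable {A₀ : Type*} [CommRing A₀] [IsDomain A₀] [IsDiscreteValuationRing A₀]
variable {L₀ : Type*} [Field L₀] [Algebra A₀ L₀] [IsFractionRing A₀ L₀]
variable {ϖ : A₀}

/-! ### The reduction map -/

variable (F : IntermediateField L₀ (LaurentSeries L₀))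

/-- well-definedness of `ā / b̄` -/
theorem s18vc_res_div_eq {x : F} {a b a' b' : LaurentSeries A₀}
    (hb0 : s18vRes A₀ b ≠ 0) (hb0' : s18vRes A₀ b' ≠ 0)
    (hx : (x : LaurentSeries L₀) * s18vIncl A₀ L₀ b = s18vIncl A₀ L₀ a)
    (hx' : (x : LaurentSeries L₀) * s18vIncl A₀ L₀ b' = s18vIncl A₀ L₀ a') :
    s18vRes A₀ a / s18vRes A₀ b = s18vRes A₀ a' / s18vRes A₀ b' := by
  rw [div_eq_div_iff hb0 hb0']
  have h : a * b' = a' * b := by
    apply s18vg_incl_injective (L₀ := L₀)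
    rw [map_mul, map_mul, ← hx, ← hx']
    ring
  rw [← map_mul, ← map_mul, h]

/-- the reduction of an element of the Gauss ring (as a function) -/
def s18vcRedFun (x : ↥(s18vO A₀ F)) : LaurentSeries (ResidueField A₀) :=
  s18vRes A₀ (Classical.choose x.2) / s18vRes A₀ (Classical.choose (Classical.choose_spec x.2))

theorem s18vcRedFun_eq (x : ↥(s18vO A₀ F)) (a b : LaurentSeries A₀)
    (hb0 : s18vRes A₀ b ≠ 0)
    (hx : ((x : F) : LaurentSeries L₀) * s18vIncl A₀ L₀ b = s18vIncl A₀ L₀ a) :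
    s18vcRedFun F x = s18vRes A₀ a / s18vRes A₀ b := by
  obtain ⟨-, -, h0, h1⟩ := Classical.choose_spec (Classical.choose_spec x.2)
  exact s18vc_res_div_eq F h0 hb0 h1 hx

/-- the reduction ring homomorphism `s18vO F → k₀((q))` -/
def s18vcRed : ↥(s18vO A₀ F) →+* LaurentSeries (ResidueField A₀) where
  toFun := s18vcRedFun F
  map_one' := by
    rw [s18vcRedFun_eq F 1 1 1 (by rw [map_one]; exact one_ne_zero) (by simp), map_one, div_one]
  map_zero' := by
    rw [s18vcRedFun_eq F 0 0 1 (by rw [map_one]; exact one_ne_zero) (by simp), map_zero, zero_div]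
  map_mul' := by
    intro x y
    obtain ⟨a, b, -, -, hb0, hx⟩ := x.2
    obtain ⟨c, d, -, -, hd0, hy⟩ := y.2
    rw [s18vcRedFun_eq F x a b hb0 hx, s18vcRedFun_eq F y c d hd0 hy,
      s18vcRedFun_eq F (x * y) (a * c) (b * d) (by rw [map_mul]; exact mul_ne_zero hb0 hd0)
        (by rw [map_mul, map_mul, ← hx, ← hy]; push_cast; ring),
      map_mul, map_mul, mul_div_mul_comm]
  map_add' := by
    intro x y
    obtain ⟨a, b, -, -, hb0, hx⟩ := x.2
    obtain ⟨c, d, -, -, hd0, hy⟩ := y.2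
    rw [s18vcRedFun_eq F x a b hb0 hx, s18vcRedFun_eq F y c d hd0 hy,
      s18vcRedFun_eq F (x + y) (a * d + c * b) (b * d)
        (by rw [map_mul]; exact mul_ne_zero hb0 hd0)
        (by rw [map_add, map_mul, map_mul, map_mul, ← hx, ← hy]; push_cast; ring),
      map_add, map_mul, map_mul, map_mul, div_add_div _ _ hb0 hd0]
    congr 1
    ring

theorem s18vcRed_eq (x : ↥(s18vO A₀ F)) (a b : LaurentSeries A₀)
    (hb0 : s18vRes A₀ b ≠ 0)
    (hx : ((x : F) : LaurentSeries L₀) * s18vIncl A₀ L₀ b = s18vIncl A₀ L₀ a) :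
    s18vcRed F x = s18vRes A₀ a / s18vRes A₀ b :=
  s18vcRedFun_eq F x a b hb0 hx

/-- reduction of an integral series -/
theorem s18vcRed_incl (x : ↥(s18vO A₀ F)) (a : LaurentSeries A₀)
    (hx : ((x : F) : LaurentSeries L₀) = s18vIncl A₀ L₀ a) : s18vcRed F x = s18vRes A₀ a := by
  rw [s18vcRed_eq F x a 1 (by rw [map_one]; exact one_ne_zero) (by rw [map_one, mul_one, hx]),
    map_one, div_one]

/-! ### Polynomials in a series over a field -/

theorem s18vc_eval₂_eq_aeval {k : Type*} [Field k] (x : LaurentSeries k) (p : k[X]) :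
    eval₂ HahnSeries.C x p = aeval x p := by
  rw [aeval_def]
  congr 1
  ext c : 1
  rw [algebraMap_laurentSeries_eq_single]
  rfl

theorem s18vc_eval₂_mem {k : Type*} [Field k] (x : LaurentSeries k) (p : k[X]) :
    eval₂ HahnSeries.C x p ∈ k⟮x⟯ := by
  rw [s18vc_eval₂_eq_aeval]
  exact IntermediateField.algebra_adjoin_le_adjoin k {x} (Polynomial.aeval_mem_adjoin_singleton k x)

/-- from polynomial coefficients to coefficients in `k(x)` -/
theorem s18vc_linearIndependent_adjoin {k : Type*} [Field k] (x y : LaurentSeries k) (n : ℕ)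
    (hind : ∀ c : Fin n → k[X], ∑ i, aeval x (c i) * y ^ (i : ℕ) = 0 → c = 0) :
    LinearIndependent ↥k⟮x⟯ (fun i : Fin n => y ^ (i : ℕ)) := by
  have h1 : LinearIndependent ↥(Algebra.adjoin k {x}) (fun i : Fin n => y ^ (i : ℕ)) := by
    rw [Fintype.linearIndependent_iff]
    intro g hg i
    have hg' : ∀ i, ∃ c : k[X], aeval x c = (g i : LaurentSeries k) := fun i =>
      Algebra.adjoin_mem_exists_aeval k x (g i).2
    choose c hc using hg'
    have h2 : ∑ i, aeval x (c i) * y ^ (i : ℕ) = 0 := by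
      rw [← hg]
      refine Finset.sum_congr rfl fun i _ => ?_
      rw [hc]
      rfl
    have h3 := hind c h2
    apply Subtype.ext
    rw [← hc, h3]
    simp
  exact h1.localization (Rₛ := ↥k⟮x⟯) (nonZeroDivisors ↥(Algebra.adjoin k {x}))

/-! ### The coordinate theorem -/

variable [CharZero A₀]

/-- (V-d,e) THE ABSTRACT COORDINATE THEOREM, with `S18VIndep` unfolded. -/
theorem s18vc_coord_of_powerBasis (hϖ : Irreducible ϖ)
    (F : IntermediateField L₀ (LaurentSeries L₀)) (hF : S18VGen A₀ F) (t : F)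
    (τ : LaurentSeries A₀) (ht : S18VPole F t τ) [FiniteDimensional L₀⟮t⟯ F]
    (ξ : LaurentSeries A₀) (hξ : s18vIncl A₀ L₀ ξ ∈ F)
    (hind : ∀ c : Fin (Module.finrank L₀⟮t⟯ F) → (ResidueField A₀)[X],
      ∑ i, aeval (s18vRes A₀ τ) (c i) * s18vRes A₀ ξ ^ (i : ℕ) = 0 → c = 0)
    (hsep : IsSeparable ↥((ResidueField A₀)⟮s18vRes A₀ τ⟯) (s18vRes A₀ ξ)) :
    S18Coord hϖ F t := by
  have hC : Prime (C ϖ : A₀[X]) := s18t_prime_C hϖ
  have htr : Transcendental L₀ t := s18v_transcendental' F hϖ t τ ht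
  -- the `O`-structures
  letI algOK : Algebra ↥(s18tLoc A₀ t (C ϖ) hC) ↥L₀⟮t⟯ :=
    (s18tuIncl (L := L₀) t (C ϖ) hC htr).toAlgebra
  haveI tow : IsScalarTower ↥(s18tLoc A₀ t (C ϖ) hC) ↥L₀⟮t⟯ ↥F :=
    IsScalarTower.of_algebraMap_eq fun _ => rfl
  haveI dvr : IsDiscreteValuationRing ↥(s18tLoc A₀ t (C ϖ) hC) :=
    s18tu_isDVR (L := L₀) t (C ϖ) hC htr
  haveI frac : IsFractionRing ↥(s18tLoc A₀ t (C ϖ) hC) ↥L₀⟮t⟯ :=
    s18tg_isFractionRing_gauss hC t htr
  have hirr : Irreducible (s18tuUnif t (C ϖ) hC) :=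
    s18tu_irreducible_unif (L := L₀) t (C ϖ) hC htr
  have hle : ∀ o : ↥(s18tLoc A₀ t (C ϖ) hC),
      algebraMap ↥(s18tLoc A₀ t (C ϖ) hC) ↥F o ∈ s18vO A₀ F := fun o =>
    s18v_loc_le' F hϖ t τ ht o o.2
  -- the reduction of `O` lands in `k₀(t̄)`
  have hκ : ∀ o : ↥(s18tLoc A₀ t (C ϖ) hC),
      s18vcRed F ⟨algebraMap ↥(s18tLoc A₀ t (C ϖ) hC) ↥F o, hle o⟩ ∈
        (ResidueField A₀)⟮s18vRes A₀ τ⟯ := by
    intro o
    obtain ⟨a, b, hb, hab⟩ := o.2
    rw [s18vcRed_eq F _ (eval₂ HahnSeries.C τ a) (eval₂ HahnSeries.C τ b)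
      (s18vg_res_eval_ne_zero hϖ τ ht.2 b hb) (by
        rw [← s18vg_coe_aeval F t τ ht.1, ← s18vg_coe_aeval F t τ ht.1, ← hab]
        push_cast
        rfl), s18vg_res_eval, s18vg_res_eval]
    exact div_mem (s18vc_eval₂_mem _ _) (s18vc_eval₂_mem _ _)
  let ι : ↥(s18tLoc A₀ t (C ϖ) hC) →+* ↥(s18vO A₀ F) :=
    { toFun := fun o => ⟨algebraMap ↥(s18tLoc A₀ t (C ϖ) hC) ↥F o, hle o⟩
      map_one' := rfl
      map_mul' := fun _ _ => rfl
      map_zero' := rfl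
      map_add' := fun _ _ => rfl }
  let ρ : ↥(s18tLoc A₀ t (C ϖ) hC) →+* ↥((ResidueField A₀)⟮s18vRes A₀ τ⟯) :=
    RingHom.codRestrict ((s18vcRed F).comp ι) ((ResidueField A₀)⟮s18vRes A₀ τ⟯) hκ
  have hcompat : ∀ o : ↥(s18tLoc A₀ t (C ϖ) hC),
      algebraMap ↥((ResidueField A₀)⟮s18vRes A₀ τ⟯) (LaurentSeries (ResidueField A₀)) (ρ o) =
        s18vcRed F ⟨algebraMap ↥(s18tLoc A₀ t (C ϖ) hC) ↥F o, hle o⟩ := fun o => rfl
  have hunif : s18vcRed F ⟨algebraMap ↥(s18tLoc A₀ t (C ϖ) hC) ↥F (s18tuUnif t (C ϖ) hC),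
      hle (s18tuUnif t (C ϖ) hC)⟩ = 0 := by
    rw [s18vcRed_incl F _ (HahnSeries.C ϖ) (by
      show ((aeval t (C ϖ) : F) : LaurentSeries L₀) = _
      rw [aeval_C, s18vg_coe_unif]), s18vg_res_C]
    have : residue A₀ ϖ = 0 := by
      rw [residue_eq_zero_iff, hϖ.maximalIdeal_eq, Ideal.mem_span_singleton]
    rw [this, map_zero]
  -- `ξ`
  let ξB : ↥(s18vO A₀ F) := ⟨⟨s18vIncl A₀ L₀ ξ, hξ⟩, ⟨ξ, 1, hξ, by rw [map_one]; exact one_mem _,
    by rw [map_one]; exact one_ne_zero, by rw [map_one, mul_one]⟩⟩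
  have hξred : s18vcRed F ξB = s18vRes A₀ ξ := s18vcRed_incl F ξB ξ rfl
  have hind' : LinearIndependent ↥((ResidueField A₀)⟮s18vRes A₀ τ⟯)
      (fun i : Fin (Module.finrank ↥L₀⟮t⟯ ↥F) => s18vcRed F ξB ^ (i : ℕ)) := by
    rw [hξred]
    exact s18vc_linearIndependent_adjoin _ _ _ hind
  have hsep' : IsSeparable ↥((ResidueField A₀)⟮s18vRes A₀ τ⟯) (s18vcRed F ξB) := by
    rw [hξred]
    exact hsep
  have hval : ∀ x : ↥F, x ∈ s18vO A₀ F ∨ x⁻¹ ∈ s18vO A₀ F := s18v_mem_or_inv_mem' F hϖ hF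
  have hint : s18tIntLoc A₀ t (C ϖ) hC = s18vO A₀ F := by
    ext x
    rw [mem_s18tIntLoc]
    exact s18vc_isIntegral_iff hirr (s18vO A₀ F) hle (s18vcRed F) ρ hunif hcompat ξB hind' hval x
  refine ⟨htr, inferInstance, hint, ?_⟩
  intro x hx
  rw [hint] at hx ⊢
  refine s18vc_selfDual hirr (s18vO A₀ F) hle (s18vcRed F) ρ hunif hcompat ξB hind' hsep' x ?_
  intro y hy
  exact ⟨⟨_, hx y hy⟩, rfl⟩

end Fermat.Agent.S18
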