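import Mathlib
import Fermat.Prelude.Def_ModularCurve_LaurentCoeff

/-!
# S18, package V, leaf (V-c): the basis trick

For a field extension `k₀ ⊆ E` and a `k₀`-linear functional `λ : E → k₀`, the coefficientwise map
`Λ : E((q)) → k₀((q))` is additive and satisfies `Λ(a • ι w) = λ a • w` (`ι` the coefficientwise
inclusion).  Hence a polynomial relation `∑ cᵢ(ι x) (ι y)^i = 0` with `cᵢ ∈ E[X]` descends to the
relation `∑ (λ_* cᵢ)(x) y^i = 0` over `k₀`, and `λ` can be chosen with `λ_* c ≠ 0` if `c ≠ 0`.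
-/

set_option autoImplicit false

noncomputable section

namespace Fermat.Agent.S18

open ModularCurve Polynomial

section BaseTrick

variable {k₀ E : Type*} [Field k₀] [Field E] [Algebra k₀ E]

/-- the coefficientwise functional on Laurent series -/
def s18vdLam (lam : E →ₗ[k₀] k₀) : LaurentSeries E →+ LaurentSeries k₀ where
  toFun s := s.map lam
  map_zero' := by
    ext m
    simp
  map_add' x y := by
    ext m
    simp

@[simp]
theorem s18vdLam_coeff (lam : E →ₗ[k₀] k₀) (s : LaurentSeries E) (m : ℤ) :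
    (s18vdLam lam s).coeff m = lam (s.coeff m) := rfl

theorem s18vd_algebraMap_eq_C {k : Type*} [Field k] (c : k) :
    algebraMap k (LaurentSeries k) c = HahnSeries.C c := by
  rw [HahnSeries.algebraMap_apply']
  simp

theorem s18vdLam_smul (lam : E →ₗ[k₀] k₀) (a : E) (w : LaurentSeries k₀) :
    s18vdLam lam (algebraMap E (LaurentSeries E) a * coeffMap (algebraMap k₀ E) w) =
      algebraMap k₀ (LaurentSeries k₀) (lam a) * w := by
  rw [s18vd_algebraMap_eq_C, s18vd_algebraMap_eq_C, HahnSeries.C_mul_eq_smul,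
    HahnSeries.C_mul_eq_smul]
  ext m
  rw [s18vdLam_coeff, HahnSeries.coeff_smul, HahnSeries.coeff_smul, coeffMap_coeff, smul_eq_mul,
    smul_eq_mul, mul_comm, ← Algebra.smul_def, map_smul, smul_eq_mul, mul_comm]

/-- the coefficientwise functional on polynomials (as a function) -/
def s18vdPolyFun (lam : E →ₗ[k₀] k₀) (p : E[X]) : k₀[X] :=
  ∑ m ∈ p.support, monomial m (lam (p.coeff m))

theorem s18vdPolyFun_coeff (lam : E →ₗ[k₀] k₀) (p : E[X]) (j : ℕ) :
    (s18vdPolyFun lam p).coeff j = lam (p.coeff j) := by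
  classical
  unfold s18vdPolyFun
  rw [finsetSum_coeff]
  simp_rw [coeff_monomial]
  rw [Finset.sum_ite_eq']
  split_ifs with h
  · rfl
  · rw [notMem_support_iff.mp h, map_zero]

/-- the coefficientwise functional on polynomials -/
def s18vdPoly (lam : E →ₗ[k₀] k₀) : E[X] →+ k₀[X] where
  toFun := s18vdPolyFun lam
  map_zero' := by
    ext m
    rw [s18vdPolyFun_coeff, coeff_zero, map_zero, coeff_zero]
  map_add' p q := by
    ext m
    rw [s18vdPolyFun_coeff, coeff_add, coeff_add, s18vdPolyFun_coeff, s18vdPolyFun_coeff, map_add]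

@[simp]
theorem s18vdPoly_coeff (lam : E →ₗ[k₀] k₀) (p : E[X]) (m : ℕ) :
    (s18vdPoly lam p).coeff m = lam (p.coeff m) :=
  s18vdPolyFun_coeff lam p m

theorem s18vdPoly_monomial (lam : E →ₗ[k₀] k₀) (m : ℕ) (a : E) :
    s18vdPoly lam (monomial m a) = monomial m (lam a) := by
  ext j
  rw [s18vdPoly_coeff, coeff_monomial, coeff_monomial]
  split_ifs
  · rfl
  · exact map_zero lam

/-- descent of one term -/
theorem s18vd_descend_term (lam : E →ₗ[k₀] k₀) (x z : LaurentSeries k₀) (p : E[X]) :
    s18vdLam lam (aeval (coeffMap (algebraMap k₀ E) x) p * coeffMap (algebraMap k₀ E) z) =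
      aeval x (s18vdPoly lam p) * z := by
  induction p using Polynomial.induction_on' with
  | add p q hp hq =>
    rw [map_add, add_mul, map_add, hp, hq, map_add, map_add, add_mul]
  | monomial m a =>
    rw [s18vdPoly_monomial, aeval_monomial, aeval_monomial, mul_assoc, mul_assoc, ← map_pow,
      ← map_mul, s18vdLam_smul]

/-- descent of a polynomial relation along a functional -/
theorem s18vd_descend (lam : E →ₗ[k₀] k₀) (x y : LaurentSeries k₀) (n : ℕ) (c : Fin n → E[X]) :
    s18vdLam lam (∑ i, aeval (coeffMap (algebraMap k₀ E) x) (c i) *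
        coeffMap (algebraMap k₀ E) y ^ (i : ℕ)) =
      ∑ i, aeval x (s18vdPoly lam (c i)) * y ^ (i : ℕ) := by
  rw [map_sum]
  refine Finset.sum_congr rfl fun i _ => ?_
  rw [← map_pow, s18vd_descend_term]

/-- a functional not killing a nonzero family -/
theorem s18vd_exists_functional {n : ℕ} (c : Fin n → E[X]) (hc : c ≠ 0) :
    ∃ lam : E →ₗ[k₀] k₀, (fun i => s18vdPoly lam (c i)) ≠ 0 := by
  obtain ⟨i, hi⟩ : ∃ i, c i ≠ 0 := by
    by_contra h
    push Not at h
    exact hc (funext h)
  obtain ⟨m, hm⟩ : ∃ m, (c i).coeff m ≠ 0 := by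
    by_contra h
    push Not at h
    exact hi (Polynomial.ext fun m => by rw [h m, coeff_zero])
  obtain ⟨lam, hlam⟩ : ∃ lam : Module.Dual k₀ E, lam ((c i).coeff m) ≠ 0 := by
    by_contra h
    push Not at h
    exact hm ((Module.forall_dual_apply_eq_zero_iff k₀ _).mp h)
  refine ⟨lam, fun h => hlam ?_⟩
  have h1 := congrFun h i
  have h2 := congrArg (fun p => Polynomial.coeff p m) h1
  simpa using h2

/-- THE BASIS TRICK: a nontrivial polynomial relation over `E` between `ι x` and `ι y` descends to a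
nontrivial polynomial relation over `k₀` between `x` and `y`. -/
theorem s18vd_exists_descent (x y : LaurentSeries k₀) (n : ℕ) (c : Fin n → E[X]) (hc : c ≠ 0)
    (h : ∑ i, aeval (coeffMap (algebraMap k₀ E) x) (c i) *
        coeffMap (algebraMap k₀ E) y ^ (i : ℕ) = 0) :
    ∃ c' : Fin n → k₀[X], c' ≠ 0 ∧ ∑ i, aeval x (c' i) * y ^ (i : ℕ) = 0 := by
  obtain ⟨lam, hlam⟩ := s18vd_exists_functional (k₀ := k₀) c hc
  refine ⟨fun i => s18vdPoly lam (c i), hlam, ?_⟩
  rw [← s18vd_descend, h, map_zero]

end BaseTrick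

end Fermat.Agent.S18
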