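import Mathlib
import Fermat.Prelude.Def_ModularCurve_X0ModL
import Fermat.Agent.S24.PlacesDefs
import Fermat.Agent.S28.Key
import Fermat.Agent.S18.V.BaseTrick

/-!
# S18, package V, leaf (V-c): degree downstairs and separability

* `s18v_indep_jM`   : over any field `k` of characteristic `ℓ ∤ M` there is no polynomial relation
  of `Y`-degree `< ψ(M)` between `j̄` and `j̄_M` (S28 `key_irreducible` + the basis trick);
* `s18v_separable_jd` : `j̄_d` is separable over `k(j̄)`;
* `s18v_isSepGen_res` : `j̄` is a separating generator of `F_k(M)`.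
-/

set_option autoImplicit false
set_option linter.unusedSectionVars false

noncomputable section

namespace Fermat.Agent.S18

open ModularCurve Polynomial IntermediateField
open scoped MatrixGroups

/-- the polynomial in `Y` with coefficient family `c` -/
theorem s18vd_eval₂_ofFn {R S : Type*} [CommRing R] [CommRing S] (f : R →+* S) (y : S) (n : ℕ)
    (c : Fin n → R) :
    (∑ i : Fin n, monomial (i : ℕ) (c i)).eval₂ f y = ∑ i : Fin n, f (c i) * y ^ (i : ℕ) := by
  rw [eval₂_finsetSum]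
  refine Finset.sum_congr rfl fun i _ => ?_
  rw [eval₂_monomial]

theorem s18vd_coeff_ofFn {R : Type*} [CommRing R] (n : ℕ) (c : Fin n → R) (i : Fin n) :
    (∑ j : Fin n, monomial (j : ℕ) (c j)).coeff (i : ℕ) = c i := by
  rw [finsetSum_coeff]
  simp_rw [coeff_monomial]
  rw [Finset.sum_eq_single i]
  · simp
  · intro j _ hj
    rw [if_neg]
    exact fun h => hj (Fin.ext h)
  · intro h
    exact absurd (Finset.mem_univ i) h

theorem s18vd_natDegree_ofFn_lt {R : Type*} [CommRing R] (n : ℕ) (hn : 0 < n) (c : Fin n → R) :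
    (∑ j : Fin n, monomial (j : ℕ) (c j)).natDegree < n := by
  have h1 : (∑ j : Fin n, monomial (j : ℕ) (c j)).natDegree ≤ n - 1 := by
    refine natDegree_sum_le_of_forall_le _ _ fun j _ => ?_
    exact (natDegree_monomial_le _).trans (by omega)
  omega

/-- (V-c1) over any field `k` of characteristic `ℓ ∤ M`: no polynomial relation of `Y`-degree
`< ψ(M)` between `j̄` and `j̄_M`. -/
theorem s18v_indep_jM {ℓ : ℕ} [Fact ℓ.Prime] (k : Type*) [Field k] [CharP k ℓ] (M : ℕ) [NeZero M]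
    (hℓM : ¬ ℓ ∣ M) (n : ℕ) (hn : n ≤ Nat.card (SL(2, ℤ) ⧸ CongruenceSubgroup.Gamma0 M))
    (c : Fin n → k[X])
    (hc : ∑ i, aeval (jqModC k) (c i) * jqNModC k M ^ (i : ℕ) = 0) : c = 0 := by
  letI : Algebra (ZMod ℓ) k := ZMod.algebra k ℓ
  by_contra hne
  have hn0 : 0 < n := by
    rcases Nat.eq_zero_or_pos n with h | h
    · subst h
      exact absurd (Subsingleton.elim c 0) hne
    · exact h
  have h1 : jqModC k = coeffMap (algebraMap (ZMod ℓ) k) (jqModC (ZMod ℓ)) :=
    (coeffMap_jqModC _).symm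
  have h2 : jqNModC k M = coeffMap (algebraMap (ZMod ℓ) k) (jqNModC (ZMod ℓ) M) :=
    (coeffMap_jqNModC _ M).symm
  rw [h1, h2] at hc
  obtain ⟨c', hc'0, hc'⟩ := s18vd_exists_descent (k₀ := ZMod ℓ) _ _ n c hne hc
  have hP := Fermat.Agent.S28.key_irreducible M ℓ hℓM (∑ i : Fin n, monomial (i : ℕ) (c' i))
    (lt_of_lt_of_le (s18vd_natDegree_ofFn_lt n hn0 c') hn) (by
      rw [s18vd_eval₂_ofFn]
      exact hc')
  apply hc'0
  funext i
  rw [← s18vd_coeff_ofFn n c' i, hP, coeff_zero]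
  rfl

/-- separability descends from a field receiving the domain `A` injectively to `Frac A`. -/
theorem s18vd_separable_fractionRing {A L : Type*} [CommRing A] [IsDomain A] [Field L]
    (g : A →+* L) (hg : Function.Injective g) (Q : Polynomial A) (h : (Q.map g).Separable) :
    (Q.map (algebraMap A (FractionRing A))).Separable := by
  have hfactor : g = (IsFractionRing.lift hg : FractionRing A →+* L).comp
      (algebraMap A (FractionRing A)) :=
    RingHom.ext fun r => (IsFractionRing.lift_algebraMap hg r).symm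
  have hmap : Q.map g = (Q.map (algebraMap A (FractionRing A))).map (IsFractionRing.lift hg) := by
    rw [Polynomial.map_map, ← hfactor]
  rw [hmap] at h
  exact (Polynomial.separable_map _).mp h

/-! ### The key statement over `kBar` -/

section Key

open Fermat.Agent.S28 Fermat.Agent.S24

variable (N : ℕ) [NeZero N] (ℓ : ℕ) [Fact ℓ.Prime]

attribute [local instance] Fermat.Agent.S28.keyirrFintypeQuot Fermat.Agent.S28.keyirrDecEqQuot
  Fermat.Agent.S28.keyirr_neZero_div

/-- S28 `key_abstract` for the modular data, in usable form: over `kBar` there is no polynomial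
relation of `Y`-degree `< ψ(N)` between `J = j(s^N)` and `x₀ = j(s^{N²})`. -/
theorem s18vd_key (hℓN : ¬ ℓ ∣ N) (P : Polynomial (Polynomial (kBar ℓ)))
    (hdeg : P.natDegree < Fintype.card (SL(2, ℤ) ⧸ CongruenceSubgroup.Gamma0 N))
    (h : P.eval₂ ((Polynomial.aeval (keyirrJ N ℓ) :
        Polynomial (kBar ℓ) →ₐ[kBar ℓ] LaurentSeries (kBar ℓ)) :
          Polynomial (kBar ℓ) →+* LaurentSeries (kBar ℓ))
        (qExpand (kBar ℓ) (N * N) (jqModC (kBar ℓ))) = 0) : P = 0 := by
  obtain ⟨C, hC0, hC1, hC2, hC3⟩ := key_abstract (keyirrJ N ℓ) (keyirrJ_order_neg N ℓ)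
    (fun ξ : SL(2, ℤ) ⧸ CongruenceSubgroup.Gamma0 N => keyirrRho N ℓ (keyirrXPair N ℓ ξ))
    (keyirrXPair_injective hℓN)
    (keyirr_prod_mem N ℓ (jdHol N) (keyirr_smul_jdHol N) (keyirrXPair N ℓ) (fst_keyirrXPair N ℓ))
    (D := KeyirrD N)
    (fun δ ξ => keyirrRho N ℓ (keyirrUPair hℓN δ ξ)) (fun δ ξ => keyirrRho N ℓ (keyirrUPair' hℓN δ ξ))
    (fun δ ξ => by rw [← map_mul, keyirrUPair_mul_keyirrUPair', map_one])
    (fun δ => keyirr_prod_mem N ℓ (unitHol (δ : ℕ)) (smul_unitHol_of_mem_Gamma0 N δ δ.2)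
      (keyirrUPair hℓN δ) (fst_keyirrUPair hℓN δ))
    (fun δ => keyirr_prod_mem N ℓ (unitHolInv (δ : ℕ)) (keyirr_smul_unitHolInv N δ δ.2)
      (keyirrUPair' hℓN δ) (fst_keyirrUPair' hℓN δ))
    (fun δ => keyirr_lagrange_mem N ℓ (jdHol N) (unitHol (δ : ℕ)) (keyirr_smul_jdHol N)
      (smul_unitHol_of_mem_Gamma0 N δ δ.2) (keyirrXPair N ℓ) (keyirrUPair hℓN δ) (fst_keyirrXPair N ℓ)
      (fst_keyirrUPair hℓN δ))
    ((1 : SL(2, ℤ)) : SL(2, ℤ) ⧸ CongruenceSubgroup.Gamma0 N)
  have hcard : C.card = Fintype.card (SL(2, ℤ) ⧸ CongruenceSubgroup.Gamma0 N) := by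
    refine keyirr_card_eq N (NeZero.ne N) (keyirrT N) (keyirrT_mem_divisors N) _ (keyirrT_eq_iff N) C hC0
      (fun δ hδ => ?_) (fun δ hδ => ?_)
    · have h1 := hC1 ⟨δ, hδ⟩
      simp only [order_keyirrUPair] at h1
      exact h1
    · have h2 := hC2 ⟨δ, hδ⟩
      simp only [order_keyirrUPair] at h2
      exact h2
  refine hC3 P (by rw [hcard]; exact hdeg) ?_
  rw [keyirrRho_keyirrXPair_one]
  exact h

/-- (V-c2, core) over `𝔽_ℓ`: `j̄_N` is a root of a polynomial with coefficients in `𝔽_ℓ[j̄]` which is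
separable over `Frac 𝔽_ℓ[X]`. -/
theorem s18vd_exists_separable (hℓN : ¬ ℓ ∣ N) :
    ∃ Q : Polynomial (Polynomial (ZMod ℓ)),
      (Q.map (algebraMap (Polynomial (ZMod ℓ)) (FractionRing (Polynomial (ZMod ℓ))))).Separable ∧
      Q.eval₂ ((Polynomial.aeval (jqModC (ZMod ℓ)) :
        Polynomial (ZMod ℓ) →ₐ[ZMod ℓ] LaurentSeries (ZMod ℓ)) :
          Polynomial (ZMod ℓ) →+* LaurentSeries (ZMod ℓ)) (jqNModC (ZMod ℓ) N) = 0 := by
  classical
  letI algZk : Algebra (ZMod ℓ) (kBar ℓ) := (ZMod.castHom (dvd_refl ℓ) (kBar ℓ)).toAlgebra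
  have hfinj : Function.Injective (keyabsHom (keyirrJ N ℓ)) :=
    keyabs_hom_injective (keyirrJ N ℓ) (keyirrJ_order_neg N ℓ)
  have hxinj : Function.Injective fun ξ : SL(2, ℤ) ⧸ CongruenceSubgroup.Gamma0 N =>
      keyirrRho N ℓ (keyirrXPair N ℓ ξ) := keyirrXPair_injective hℓN
  -- the product polynomial
  set Φ : Polynomial (LaurentSeries (kBar ℓ)) :=
    ∏ ξ : SL(2, ℤ) ⧸ CongruenceSubgroup.Gamma0 N,
      (Polynomial.X - Polynomial.C (keyirrRho N ℓ (keyirrXPair N ℓ ξ))) with hΦ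
  have hΦmonic : Φ.Monic := monic_prod_of_monic _ _ fun ξ _ => monic_X_sub_C _
  have hΦdeg : Φ.natDegree = Fintype.card (SL(2, ℤ) ⧸ CongruenceSubgroup.Gamma0 N) := by
    rw [hΦ, natDegree_finsetProd_X_sub_C_eq_card, Finset.card_univ]
  have hΦroot : Φ.eval (qExpand (kBar ℓ) (N * N) (jqModC (kBar ℓ))) = 0 := by
    rw [hΦ, eval_prod]
    refine Finset.prod_eq_zero (Finset.mem_univ
      ((1 : SL(2, ℤ)) : SL(2, ℤ) ⧸ CongruenceSubgroup.Gamma0 N)) ?_
    rw [eval_sub, eval_X, eval_C, keyirrRho_keyirrXPair_one, sub_self]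
  have hΦsep : Φ.Separable := separable_prod_X_sub_C_iff.mpr hxinj
  have hΦlift : Φ ∈ Polynomial.lifts (keyabsHom (keyirrJ N ℓ)) := by
    rw [Polynomial.lifts_iff_coeff_lifts]
    intro i
    obtain ⟨p, hp⟩ := keyirr_prod_mem N ℓ (jdHol N) (keyirr_smul_jdHol N) (keyirrXPair N ℓ)
      (fst_keyirrXPair N ℓ) i
    exact ⟨p, hp⟩
  obtain ⟨Φ₁, hΦ₁map, hΦ₁deg, hΦ₁monic⟩ :=
    Polynomial.lifts_and_natDegree_eq_and_monic hΦlift hΦmonic
  rw [hΦdeg] at hΦ₁deg
  set ψ := Fintype.card (SL(2, ℤ) ⧸ CongruenceSubgroup.Gamma0 N) with hψ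
  have hΦ₁root : Φ₁.eval₂ (keyabsHom (keyirrJ N ℓ)) (qExpand (kBar ℓ) (N * N) (jqModC (kBar ℓ))) =
      0 := by
    rw [← eval_map, hΦ₁map]
    exact hΦroot
  -- the basis trick
  have hιx : coeffMap (algebraMap (ZMod ℓ) (kBar ℓ)) (qExpand (ZMod ℓ) N (jqModC (ZMod ℓ))) =
      keyirrJ N ℓ := by
    rw [coeffMap_qExpand, coeffMap_jqModC]
    rfl
  have hιy : coeffMap (algebraMap (ZMod ℓ) (kBar ℓ)) (qExpand (ZMod ℓ) N (jqNModC (ZMod ℓ) N)) =
      qExpand (kBar ℓ) (N * N) (jqModC (kBar ℓ)) := by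
    rw [coeffMap_qExpand, coeffMap_jqNModC, jqNModC, qExpand_qExpand]
  have hrel : ∑ i : Fin (ψ + 1),
      aeval (coeffMap (algebraMap (ZMod ℓ) (kBar ℓ)) (qExpand (ZMod ℓ) N (jqModC (ZMod ℓ))))
          (Φ₁.coeff (i : ℕ)) *
        coeffMap (algebraMap (ZMod ℓ) (kBar ℓ)) (qExpand (ZMod ℓ) N (jqNModC (ZMod ℓ) N)) ^ (i : ℕ) =
      0 := by
    rw [hιx, hιy, ← hΦ₁root, eval₂_eq_sum_range, hΦ₁deg,
      Fin.sum_univ_eq_sum_range (fun i => aeval (keyirrJ N ℓ) (Φ₁.coeff i) *
        qExpand (kBar ℓ) (N * N) (jqModC (kBar ℓ)) ^ i) (ψ + 1)]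
    rfl
  have hc0 : (fun i : Fin (ψ + 1) => Φ₁.coeff (i : ℕ)) ≠ 0 := by
    intro h
    have h1 := congrFun h ⟨ψ, Nat.lt_succ_self ψ⟩
    have h2 : Φ₁.coeff ψ = 1 := by
      rw [← hΦ₁deg]
      exact hΦ₁monic
    rw [Pi.zero_apply] at h1
    simp only at h1
    rw [h2] at h1
    exact one_ne_zero h1
  obtain ⟨c', hc'0, hc'⟩ := s18vd_exists_descent (k₀ := ZMod ℓ) _ _ (ψ + 1) _ hc0 hrel
  -- undo `q ↦ s^N`
  have hc'' : ∑ i : Fin (ψ + 1), aeval (jqModC (ZMod ℓ)) (c' i) * jqNModC (ZMod ℓ) N ^ (i : ℕ) =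
      0 := by
    apply (qExpandAlgHomC (ZMod ℓ) N).toRingHom.injective
    rw [map_zero, ← hc', map_sum]
    refine Finset.sum_congr rfl fun i _ => ?_
    rw [map_mul, map_pow]
    congr 1
    exact (aeval_algHom_apply (qExpandAlgHomC (ZMod ℓ) N) (jqModC (ZMod ℓ)) (c' i)).symm
  set Q : Polynomial (Polynomial (ZMod ℓ)) := ∑ i : Fin (ψ + 1), monomial (i : ℕ) (c' i) with hQ
  have hQroot : Q.eval₂ ((Polynomial.aeval (jqModC (ZMod ℓ)) :
      Polynomial (ZMod ℓ) →ₐ[ZMod ℓ] LaurentSeries (ZMod ℓ)) :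
        Polynomial (ZMod ℓ) →+* LaurentSeries (ZMod ℓ)) (jqNModC (ZMod ℓ) N) = 0 := by
    rw [hQ, s18vd_eval₂_ofFn]
    exact hc''
  refine ⟨Q, ?_, hQroot⟩
  have hQ0 : Q ≠ 0 := by
    intro h
    apply hc'0
    funext i
    rw [← s18vd_coeff_ofFn (ψ + 1) c' i, ← hQ, h, coeff_zero]
    rfl
  have hQdeg : Q.natDegree ≤ ψ := Nat.lt_succ_iff.mp (s18vd_natDegree_ofFn_lt (ψ + 1) (Nat.succ_pos ψ) c')
  -- move to `kBar`
  have hι : Function.Injective (ZMod.castHom (dvd_refl ℓ) (kBar ℓ)) := RingHom.injective _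
  have hmap : Function.Injective
      (Polynomial.mapRingHom (ZMod.castHom (dvd_refl ℓ) (kBar ℓ))) := by
    rw [Polynomial.coe_mapRingHom]
    exact Polynomial.map_injective _ hι
  set P : Polynomial (Polynomial (kBar ℓ)) :=
    Q.map (Polynomial.mapRingHom (ZMod.castHom (dvd_refl ℓ) (kBar ℓ))) with hP
  have hP0 : P ≠ 0 := by
    intro h
    apply hQ0
    apply Polynomial.map_injective _ hmap
    rw [Polynomial.map_zero]
    exact h
  have hPdeg : P.natDegree = Q.natDegree := natDegree_map_eq_of_injective hmap Q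
  have hProot : P.eval₂ (keyabsHom (keyirrJ N ℓ)) (qExpand (kBar ℓ) (N * N) (jqModC (kBar ℓ))) =
      0 := by
    rw [hP, Polynomial.eval₂_map, ← keyirrPsi_comp_aeval, ← keyirrPsi_jqN, ← Polynomial.hom_eval₂,
      hQroot, map_zero]
  have hPdeg' : P.natDegree = ψ := by
    by_contra hne
    have hlt : P.natDegree < ψ := lt_of_le_of_ne (hPdeg ▸ hQdeg) hne
    exact hP0 (s18vd_key N ℓ hℓN P hlt hProot)
  -- `P = C lc * Φ₁`
  have hlc0 : P.leadingCoeff ≠ 0 := leadingCoeff_ne_zero.mpr hP0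
  have hD : Polynomial.C P.leadingCoeff * Φ₁ - P = 0 := by
    by_contra hD0
    have hdeg1 : (Polynomial.C P.leadingCoeff * Φ₁).natDegree = ψ := by
      rw [natDegree_C_mul hlc0, hΦ₁deg]
    have h1 : (Polynomial.C P.leadingCoeff * Φ₁).degree = P.degree := by
      rw [degree_eq_natDegree hP0, hPdeg', ← hdeg1, degree_eq_natDegree]
      exact mul_ne_zero (by rwa [Ne, C_eq_zero]) hΦ₁monic.ne_zero
    have h2 : (Polynomial.C P.leadingCoeff * Φ₁).leadingCoeff = P.leadingCoeff := by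
      rw [leadingCoeff_mul, leadingCoeff_C, hΦ₁monic.leadingCoeff, mul_one]
    have h3 := degree_sub_lt_left h1
      (mul_ne_zero (by rwa [Ne, C_eq_zero]) hΦ₁monic.ne_zero) h2
    have h4 : (Polynomial.C P.leadingCoeff * Φ₁ - P).natDegree < ψ := by
      rw [← hdeg1]
      exact (natDegree_lt_natDegree_iff hD0).mpr h3
    apply hD0
    refine s18vd_key N ℓ hℓN _ h4 ?_
    rw [eval₂_sub, eval₂_mul, eval₂_C, hΦ₁root, mul_zero, hProot, sub_self]
  have hPeq : P = Polynomial.C P.leadingCoeff * Φ₁ := (sub_eq_zero.mp hD).symm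
  -- separability
  have hPsep : (P.map (keyabsHom (keyirrJ N ℓ))).Separable := by
    rw [hPeq, Polynomial.map_mul, Polynomial.map_C, hΦ₁map]
    refine Separable.unit_mul ?_ hΦsep
    rw [Polynomial.isUnit_C, isUnit_iff_ne_zero]
    intro h
    exact hlc0 (hfinj (by rw [h, map_zero]))
  refine s18vd_separable_fractionRing
    ((keyabsHom (keyirrJ N ℓ)).comp (Polynomial.mapRingHom (ZMod.castHom (dvd_refl ℓ) (kBar ℓ))))
    (hfinj.comp hmap) Q ?_
  rw [← Polynomial.map_map]
  exact hPsep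

end Key

/-! ### Transfer to an arbitrary field of characteristic `ℓ` -/

section Transfer

open Fermat.Agent.S28

variable {ℓ : ℕ} [Fact ℓ.Prime]

/-- a root of a polynomial over `𝔽_ℓ[X]` separable over `Frac 𝔽_ℓ[X]` is separable over every field
receiving `𝔽_ℓ[X]` injectively. -/
theorem s18vd_isSeparable_of_core {K R : Type*} [Field K] [CommRing R] [Algebra K R]
    (φ : Polynomial (ZMod ℓ) →+* K) (hφ : Function.Injective φ)
    (Q : Polynomial (Polynomial (ZMod ℓ)))
    (hQ : (Q.map (algebraMap (Polynomial (ZMod ℓ)) (FractionRing (Polynomial (ZMod ℓ))))).Separable)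
    (y : R) (hy : Q.eval₂ ((algebraMap K R).comp φ) y = 0) : IsSeparable K y := by
  have hfactor : φ = (IsFractionRing.lift hφ : FractionRing (Polynomial (ZMod ℓ)) →+* K).comp
      (algebraMap (Polynomial (ZMod ℓ)) (FractionRing (Polynomial (ZMod ℓ)))) :=
    RingHom.ext fun r => (IsFractionRing.lift_algebraMap hφ r).symm
  have hsep : (Q.map φ).Separable := by
    rw [hfactor, ← Polynomial.map_map]
    exact hQ.map
  have hroot : aeval y (Q.map φ) = 0 := by
    rw [aeval_def, eval₂_map]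
    exact hy
  exact hsep.of_dvd (minpoly.dvd K y hroot)

theorem s18vd_order_jq_neg (k : Type*) [Field k] : (jqModC k).order < 0 := by
  have h1 : (jqModC k).coeff (-1) = 1 := coeff_jqModC_neg_one k
  have h2 : (jqModC k).order ≤ -1 :=
    HahnSeries.order_le_of_coeff_ne_zero (by rw [h1]; exact one_ne_zero)
  linarith

/-- the comparison of the two ways from `𝔽_ℓ[X]` to `k((q))` -/
theorem s18vd_comp_aeval (k : Type*) [Field k] [Algebra (ZMod ℓ) k] :
    ((Polynomial.aeval (jqModC k) : Polynomial k →ₐ[k] LaurentSeries k) :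
        Polynomial k →+* LaurentSeries k).comp (Polynomial.mapRingHom (algebraMap (ZMod ℓ) k)) =
      (coeffMap (algebraMap (ZMod ℓ) k)).comp
        ((Polynomial.aeval (jqModC (ZMod ℓ)) :
          Polynomial (ZMod ℓ) →ₐ[ZMod ℓ] LaurentSeries (ZMod ℓ)) :
            Polynomial (ZMod ℓ) →+* LaurentSeries (ZMod ℓ)) := by
  refine Polynomial.ringHom_ext (fun a => ?_) ?_
  · simp only [RingHom.comp_apply, RingHom.coe_coe, Polynomial.aeval_C,
      Polynomial.coe_mapRingHom, Polynomial.map_C]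
    rw [keyirr_algebraMap_eq_C, keyirr_algebraMap_eq_C, keyirr_coeffMap_C]
  · simp only [RingHom.comp_apply, RingHom.coe_coe, Polynomial.aeval_X,
      Polynomial.coe_mapRingHom, Polynomial.map_X]
    exact (coeffMap_jqModC _).symm

/-- GENERAL FORM of (V-c2): if `θ : R → k((q))` is an injective ring hom from a `K`-algebra, `K` a
field generated over `k` by an element `T` with `θ T = j̄`, then every `y` with `θ y = j̄_d` is
separable over `K`. -/
theorem s18vd_isSeparable_general (k : Type*) [Field k] [CharP k ℓ] (d : ℕ) [NeZero d]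
    (hℓd : ¬ ℓ ∣ d) {K R : Type*} [Field K] [CommRing R] [Algebra k K] [Algebra K R]
    (θ : R →+* LaurentSeries k) (hθ : Function.Injective θ) (T : K)
    (hθk : ∀ c : k, θ (algebraMap K R (algebraMap k K c)) = algebraMap k (LaurentSeries k) c)
    (hθT : θ (algebraMap K R T) = jqModC k)
    (y : R) (hy : θ y = jqNModC k d) : IsSeparable K y := by
  letI : Algebra (ZMod ℓ) k := ZMod.algebra k ℓ
  obtain ⟨Q, hQsep, hQroot⟩ := s18vd_exists_separable d ℓ hℓd
  -- `θ ∘ algebraMap ∘ aeval T = aeval j̄`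
  have hcomp1 : (θ.comp (algebraMap K R)).comp
      ((Polynomial.aeval T : Polynomial k →ₐ[k] K) : Polynomial k →+* K) =
      ((Polynomial.aeval (jqModC k) : Polynomial k →ₐ[k] LaurentSeries k) :
        Polynomial k →+* LaurentSeries k) := by
    refine Polynomial.ringHom_ext (fun a => ?_) ?_
    · simp only [RingHom.comp_apply, RingHom.coe_coe, Polynomial.aeval_C]
      exact hθk a
    · simp only [RingHom.comp_apply, RingHom.coe_coe, Polynomial.aeval_X]
      exact hθT
  have hinjT : Function.Injective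
      ((Polynomial.aeval T : Polynomial k →ₐ[k] K) : Polynomial k →+* K) := by
    have h1 : Function.Injective ((θ.comp (algebraMap K R)).comp
        ((Polynomial.aeval T : Polynomial k →ₐ[k] K) : Polynomial k →+* K)) := by
      rw [hcomp1]
      exact keyabs_hom_injective (jqModC k) (s18vd_order_jq_neg k)
    intro a b hab
    apply h1
    show θ (algebraMap K R (((Polynomial.aeval T : Polynomial k →ₐ[k] K) : Polynomial k →+* K) a)) =
      θ (algebraMap K R (((Polynomial.aeval T : Polynomial k →ₐ[k] K) : Polynomial k →+* K) b))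
    rw [hab]
  have hmapinj : Function.Injective (Polynomial.mapRingHom (algebraMap (ZMod ℓ) k)) := by
    rw [Polynomial.coe_mapRingHom]
    exact Polynomial.map_injective _ (algebraMap (ZMod ℓ) k).injective
  refine s18vd_isSeparable_of_core
    ((((Polynomial.aeval T : Polynomial k →ₐ[k] K) : Polynomial k →+* K)).comp
      (Polynomial.mapRingHom (algebraMap (ZMod ℓ) k))) (hinjT.comp hmapinj) Q hQsep y ?_
  apply hθ
  rw [map_zero, Polynomial.hom_eval₂, hy, ← RingHom.comp_assoc, ← RingHom.comp_assoc, hcomp1,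
    s18vd_comp_aeval, ← coeffMap_jqNModC (algebraMap (ZMod ℓ) k) d, ← Polynomial.hom_eval₂, hQroot,
    map_zero]

/-- (V-c2) `j̄_d` is separable over `k(j̄)` for `ℓ ∤ d`. -/
theorem s18v_separable_jd (k : Type*) [Field k] [CharP k ℓ]
    (d : ℕ) [NeZero d] (hℓd : ¬ ℓ ∣ d) :
    IsSeparable ↥(k⟮jqModC k⟯) (jqNModC k d) :=
  s18vd_isSeparable_general k d hℓd (RingHom.id _) Function.injective_id
    (IntermediateField.AdjoinSimple.gen k (jqModC k)) (fun _ => rfl)
    (IntermediateField.AdjoinSimple.algebraMap_gen k (jqModC k)) _ rfl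

/-- the set of generators of `F_k(M)` is finite -/
theorem s18vd_finite_divisorExpansions (k : Type*) [Field k] (M : ℕ) [NeZero M] :
    (divisorExpansionsC k M).Finite := by
  refine Set.Finite.subset ((Nat.divisors M).finite_toSet.image
    (fun d => if h : d = 0 then 0 else @qExpand k _ d ⟨h⟩ (jqModC k))) ?_
  rintro x ⟨d, hd0, hdM, rfl⟩
  refine ⟨d, Finset.mem_coe.mpr (Nat.mem_divisors.mpr ⟨hdM, NeZero.ne M⟩), ?_⟩
  simp only
  rw [dif_neg (NeZero.ne d)]

/-- (V-c3) `j̄` is a separating generator of `F_k(M)`. -/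
theorem s18v_isSepGen_res (k : Type*) [Field k] [CharP k ℓ]
    (M : ℕ) [NeZero M] (hℓM : ¬ ℓ ∣ M) :
    Fermat.Agent.S24.IsSepGen k
      (⟨jqModC k, jqModC_mem_full k M⟩ : modularFunctionFieldFullC k M) := by
  set t : ↥(modularFunctionFieldFullC k M) := ⟨jqModC k, jqModC_mem_full k M⟩ with ht
  -- transcendental
  have htr : Transcendental k t := by
    intro halg
    have h1 : IsAlgebraic k
        (algebraMap ↥(modularFunctionFieldFullC k M) (LaurentSeries k) t) :=
      (isAlgebraic_algebraMap_iff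
        (algebraMap ↥(modularFunctionFieldFullC k M) (LaurentSeries k)).injective).mpr halg
    obtain ⟨p, hp0, hp⟩ := h1
    exact keyabs_aeval_ne_zero (jqModC k) (s18vd_order_jq_neg k) p hp0 hp
  -- the generators
  set S' : Set ↥(modularFunctionFieldFullC k M) :=
    {x | (x : LaurentSeries k) ∈ divisorExpansionsC k M} with hS'
  have hS'sep : ∀ x ∈ S', IsSeparable ↥k⟮t⟯ x := by
    rintro x ⟨d, hd0, hdM, hx⟩
    haveI := hd0
    have hℓd : ¬ ℓ ∣ d := fun h => hℓM (h.trans hdM)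
    exact s18vd_isSeparable_general k d hℓd
      (algebraMap ↥(modularFunctionFieldFullC k M) (LaurentSeries k))
      (algebraMap ↥(modularFunctionFieldFullC k M) (LaurentSeries k)).injective
      (IntermediateField.AdjoinSimple.gen k t) (fun c => rfl)
      (by rw [IntermediateField.AdjoinSimple.algebraMap_gen]; rfl) x hx
  have hS'fin : S'.Finite :=
    (s18vd_finite_divisorExpansions k M).preimage (Set.injOn_of_injective Subtype.val_injective)
  haveI : Finite ↑S' := hS'fin.to_subtype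
  -- `S'` generates
  have hgen : IntermediateField.adjoin k S' = ⊤ := by
    apply IntermediateField.map_injective (modularFunctionFieldFullC k M).val
    rw [IntermediateField.adjoin_map, ← AlgHom.fieldRange_eq_map, IntermediateField.fieldRange_val]
    have himg : (modularFunctionFieldFullC k M).val '' S' = divisorExpansionsC k M := by
      ext x
      constructor
      · rintro ⟨y, hy, rfl⟩
        exact hy
      · intro hx
        exact ⟨⟨x, IntermediateField.subset_adjoin k _ hx⟩, hx, rfl⟩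
    rw [himg]
    rfl
  have htop : IntermediateField.adjoin ↥k⟮t⟯ S' = ⊤ := by
    rw [← IntermediateField.restrictScalars_eq_top_iff (K := k),
      IntermediateField.restrictScalars_adjoin, eq_top_iff, ← hgen]
    exact IntermediateField.adjoin.mono k _ _ Set.subset_union_right
  haveI hsepA : Algebra.IsSeparable ↥k⟮t⟯ ↥(IntermediateField.adjoin ↥k⟮t⟯ S') :=
    (IntermediateField.isSeparable_adjoin_iff_isSeparable _ _).mpr hS'sep
  haveI hfinA : FiniteDimensional ↥k⟮t⟯ ↥(IntermediateField.adjoin ↥k⟮t⟯ S') :=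
    IntermediateField.finiteDimensional_adjoin fun x hx => (hS'sep x hx).isIntegral
  let e : ↥(IntermediateField.adjoin ↥k⟮t⟯ S') ≃ₐ[↥k⟮t⟯] ↥(modularFunctionFieldFullC k M) :=
    (IntermediateField.equivOfEq htop).trans IntermediateField.topEquiv
  exact ⟨htr, e.toLinearEquiv.finiteDimensional, AlgEquiv.Algebra.isSeparable e⟩

end Transfer

end Fermat.Agent.S18
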