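import Mathlib
import Fermat.Prelude.Def_ModularCurve_X0ModL
import Fermat.Agent.S24.Degree

/-!
# S18, package V, row V-b : `[F_K(M) : K(j)] ≤ ψ(M)` for every field `K` of characteristic `0`

* `s18vbPhi φ` : coefficientwise application of a `K`-linear functional `φ : L → K`,
  `L((q)) → K((q))`; it is `K((q))`-semilinear (`s18vb_phi_mul`);
* `s18vb_indep` (independence goes UP along `K ⊆ L`): a family of `F_K` linearly independent over
  `K(j)` stays linearly independent over `L(j)` in `F_L`;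
* `s18vb_span` (spanning goes UP): the image of a `K(j)`-basis of `F_K` spans `F_L` over `L(j)` if
  `F_L` is generated over `L` by the image of `F_K`;
* `s18v_finrank_le'` : `ℚ̄ ⊇ ℚ ⊆ K` and S24 `finrank_jBar`.
-/

set_option autoImplicit false
set_option linter.unusedSectionVars false
set_option synthInstance.maxHeartbeats 400000

noncomputable section

namespace Fermat.Agent.S18

open ModularCurve Polynomial IntermediateField
open scoped MatrixGroups

section Phi

variable {K L : Type*} [Field K] [Field L] [Algebra K L]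

/-- coefficientwise inclusion along `K ⊆ L` -/
abbrev s18vbEmb (K L : Type*) [Field K] [Field L] [Algebra K L] :
    LaurentSeries K →+* LaurentSeries L := coeffMap (algebraMap K L)

theorem s18vb_emb_injective : Function.Injective (s18vbEmb K L) := by
  intro x y hxy
  ext k
  have := congrArg (fun s => HahnSeries.coeff s k) hxy
  simp only [coeffMap_coeff] at this
  exact (algebraMap K L).injective this

theorem s18vb_emb_algebraMap (a : K) :
    s18vbEmb K L (algebraMap K (LaurentSeries K) a) =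
      algebraMap L (LaurentSeries L) (algebraMap K L a) := by
  rw [algebraMap_laurentSeries_eq_single, algebraMap_laurentSeries_eq_single]
  exact coeffMap_single _ _ _

/-- coefficientwise application of a `K`-linear functional -/
def s18vbPhi (φ : L →ₗ[K] K) : LaurentSeries L →+ LaurentSeries K where
  toFun y := y.map φ
  map_zero' := by ext k; simp
  map_add' x y := by ext k; simp

theorem s18vb_phi_coeff (φ : L →ₗ[K] K) (y : LaurentSeries L) (k : ℤ) :
    (s18vbPhi φ y).coeff k = φ (y.coeff k) := rfl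

/-- semilinearity -/
theorem s18vb_phi_mul (φ : L →ₗ[K] K) (x : LaurentSeries K) (y : LaurentSeries L) :
    s18vbPhi φ (s18vbEmb K L x * y) = x * s18vbPhi φ y := by
  ext n
  have h1 : (s18vbEmb K L x).support ⊆ x.support := by
    intro a ha
    rw [HahnSeries.mem_support] at ha ⊢
    intro h0
    apply ha
    rw [coeffMap_coeff, h0, map_zero]
  have h2 : (s18vbPhi φ y).support ⊆ y.support := by
    intro a ha
    rw [HahnSeries.mem_support] at ha ⊢
    intro h0
    apply ha
    rw [s18vb_phi_coeff, h0, map_zero]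
  rw [s18vb_phi_coeff, HahnSeries.coeff_mul_left' x.isPWO_support h1,
    HahnSeries.coeff_mul_right' y.isPWO_support h2, map_sum]
  refine Finset.sum_congr rfl fun ij _ => ?_
  rw [coeffMap_coeff, s18vb_phi_coeff, ← Algebra.smul_def, map_smul, smul_eq_mul]

theorem s18vb_phi_algebraMap (φ : L →ₗ[K] K) (c : L) :
    s18vbPhi φ (algebraMap L (LaurentSeries L) c) = algebraMap K (LaurentSeries K) (φ c) := by
  rw [algebraMap_laurentSeries_eq_single, algebraMap_laurentSeries_eq_single]
  ext k
  rw [s18vb_phi_coeff]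
  rcases eq_or_ne k 0 with rfl | hk
  · simp [HahnSeries.coeff_single_same]
  · simp [HahnSeries.coeff_single_of_ne hk]

/-- a series all of whose coordinate series vanish is zero -/
theorem s18vb_eq_zero_of_phi {I : Type*} (b : Module.Basis I K L) (y : LaurentSeries L)
    (h : ∀ k, s18vbPhi (b.coord k) y = 0) : y = 0 := by
  ext n
  rw [HahnSeries.coeff_zero]
  apply b.ext_elem_iff.mpr
  intro k
  have := congrArg (fun s => HahnSeries.coeff s n) (h k)
  simpa [s18vb_phi_coeff] using this

/-- `Φ` maps `L[emb j]` into `K[j]` -/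
theorem s18vb_phi_mem_adjoin (φ : L →ₗ[K] K) (j : LaurentSeries K) (g : LaurentSeries L)
    (hg : g ∈ Algebra.adjoin L {s18vbEmb K L j}) : s18vbPhi φ g ∈ Algebra.adjoin K {j} := by
  rw [Algebra.adjoin_singleton_eq_range_aeval] at hg
  obtain ⟨P, rfl⟩ := hg
  show s18vbPhi φ (aeval (s18vbEmb K L j) P) ∈ _
  rw [aeval_eq_sum_range, map_sum]
  refine Subalgebra.sum_mem _ fun m _ => ?_
  rw [Algebra.smul_def, ← map_pow, mul_comm, s18vb_phi_mul, s18vb_phi_algebraMap]
  exact Subalgebra.mul_mem _ (Subalgebra.pow_mem _ (Algebra.self_mem_adjoin_singleton K j) m)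
    (Subalgebra.algebraMap_mem _ _)

/-- INDEPENDENCE GOES UP (series level). -/
theorem s18vb_indep_series (j : LaurentSeries K) {ι : Type*} [Fintype ι]
    (x : ι → LaurentSeries K)
    (hx : ∀ r : ι → LaurentSeries K, (∀ i, r i ∈ Algebra.adjoin K {j}) →
      ∑ i, r i * x i = 0 → ∀ i, r i = 0)
    (g : ι → LaurentSeries L) (hg : ∀ i, g i ∈ Algebra.adjoin L {s18vbEmb K L j})
    (h0 : ∑ i, g i * s18vbEmb K L (x i) = 0) : ∀ i, g i = 0 := by
  intro i
  let b := Module.Basis.ofVectorSpace K L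
  apply s18vb_eq_zero_of_phi b
  intro k
  refine hx (fun i => s18vbPhi (b.coord k) (g i))
    (fun i => s18vb_phi_mem_adjoin _ j _ (hg i)) ?_ i
  have := congrArg (s18vbPhi (b.coord k)) h0
  rw [map_sum, map_zero] at this
  rw [← this]
  refine Finset.sum_congr rfl fun i _ => ?_
  rw [mul_comm (g i), s18vb_phi_mul, mul_comm]

end Phi

section Fields

open IntermediateField.algebraAdjoinAdjoin

variable {K L : Type*} [Field K] [Field L] [Algebra K L]
variable (FK : IntermediateField K (LaurentSeries K)) (FL : IntermediateField L (LaurentSeries L))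
variable (hF : ∀ x ∈ FK, s18vbEmb K L x ∈ FL)
variable (j : LaurentSeries K) (hj : j ∈ FK)

theorem s18vb_adjoin_coe {K : Type*} [Field K] (F : IntermediateField K (LaurentSeries K))
    (j' : F) :
    (Algebra.adjoin K {j'}).map F.val = Algebra.adjoin K {(j' : LaurentSeries K)} := by
  rw [AlgHom.map_adjoin, Set.image_singleton]
  rfl

/-- INDEPENDENCE GOES UP. -/
theorem s18vb_indep {ι : Type*} [Fintype ι] (v : ι → FK)
    (hv : LinearIndependent K⟮(⟨j, hj⟩ : FK)⟯ v) :
    LinearIndependent L⟮(⟨s18vbEmb K L j, hF j hj⟩ : FL)⟯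
      (fun i => (⟨s18vbEmb K L (v i), hF _ (v i).2⟩ : FL)) := by
  rw [← LinearIndependent.iff_fractionRing (Algebra.adjoin K {(⟨j, hj⟩ : FK)})
    K⟮(⟨j, hj⟩ : FK)⟯] at hv
  rw [← LinearIndependent.iff_fractionRing
    (Algebra.adjoin L {(⟨s18vbEmb K L j, hF j hj⟩ : FL)})
    L⟮(⟨s18vbEmb K L j, hF j hj⟩ : FL)⟯]
  rw [Fintype.linearIndependent_iff] at hv ⊢
  intro g hg0
  have key := s18vb_indep_series (L := L) j (fun i => (v i : LaurentSeries K)) ?_
    (fun i => ((g i : FL) : LaurentSeries L)) ?_ ?_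
  · intro i
    exact Subtype.ext (Subtype.ext (key i))
  · intro r hr hr0
    have hr' : ∀ i, ∃ ρ : Algebra.adjoin K {(⟨j, hj⟩ : FK)},
        ((ρ : FK) : LaurentSeries K) = r i := by
      intro i
      have := hr i
      rw [← s18vb_adjoin_coe FK ⟨j, hj⟩] at this
      obtain ⟨ρ, hρ, hρr⟩ := this
      exact ⟨⟨ρ, hρ⟩, hρr⟩
    choose ρ hρ using hr'
    have := hv ρ (by
      apply Subtype.ext
      rw [ZeroMemClass.coe_zero, ← hr0]
      push_cast
      refine Finset.sum_congr rfl fun i _ => ?_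
      rw [← hρ i]
      rfl)
    intro i
    rw [← hρ i, this i]
    rfl
  · intro i
    rw [← s18vb_adjoin_coe FL ⟨s18vbEmb K L j, hF j hj⟩]
    exact ⟨(g i : FL), (g i).2, rfl⟩
  · have := congrArg (fun y : FL => (y : LaurentSeries L)) hg0
    rw [ZeroMemClass.coe_zero] at this
    rw [← this]
    push_cast
    rfl

/-- hence the degree goes DOWN along `K ⊆ L`. -/
theorem s18vb_finrank_le_of_indep
    [FiniteDimensional L⟮(⟨s18vbEmb K L j, hF j hj⟩ : FL)⟯ FL] :
    FiniteDimensional K⟮(⟨j, hj⟩ : FK)⟯ FK ∧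
      Module.finrank K⟮(⟨j, hj⟩ : FK)⟯ FK ≤
        Module.finrank L⟮(⟨s18vbEmb K L j, hF j hj⟩ : FL)⟯ FL := by
  have hrank : Module.rank K⟮(⟨j, hj⟩ : FK)⟯ FK ≤
      (Module.finrank L⟮(⟨s18vbEmb K L j, hF j hj⟩ : FL)⟯ FL : ℕ) := by
    apply rank_le
    intro s hs
    have := (s18vb_indep FK FL hF j hj (fun i : s => (i : FK)) hs).fintype_card_le_finrank
    rwa [Fintype.card_coe] at this
  refine ⟨Module.rank_lt_aleph0_iff.mp (hrank.trans_lt (Cardinal.natCast_lt_aleph0)), ?_⟩
  exact Module.finrank_le_of_rank_le hrank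

/-- the restriction of `emb` to `F_K → F_L`. -/
def s18vbRes : FK →+* FL where
  toFun x := ⟨s18vbEmb K L x, hF x x.2⟩
  map_one' := Subtype.ext (by simp)
  map_mul' x y := Subtype.ext (by simp)
  map_zero' := Subtype.ext (by simp)
  map_add' x y := Subtype.ext (by simp)

theorem s18vb_res_coe (x : FK) :
    ((s18vbRes FK FL hF x : FL) : LaurentSeries L) = s18vbEmb K L x := rfl

theorem s18vb_res_mem (c : FK) (hc : c ∈ K⟮(⟨j, hj⟩ : FK)⟯) :
    s18vbRes FK FL hF c ∈ L⟮(⟨s18vbEmb K L j, hF j hj⟩ : FL)⟯ := by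
  induction hc using IntermediateField.adjoin_induction with
  | mem x hx =>
    rw [Set.mem_singleton_iff] at hx
    subst hx
    exact IntermediateField.mem_adjoin_simple_self L _
  | algebraMap a =>
    have : s18vbRes FK FL hF (algebraMap K FK a) = algebraMap L FL (algebraMap K L a) :=
      Subtype.ext (s18vb_emb_algebraMap a)
    rw [this]
    exact IntermediateField.algebraMap_mem _ _
  | add x y _ _ hx hy => rw [map_add]; exact add_mem hx hy
  | inv x _ hx => rw [map_inv₀]; exact inv_mem hx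
  | mul x y _ _ hx hy => rw [map_mul]; exact mul_mem hx hy

/-- SPANNING GOES UP (abstract form): along compatible ring homs `E_K → E_L`, `F_K → F_L` the image of
an `E_K`-basis of `F_K` spans an `E_L`-subalgebra of `F_L` which is a field. -/
theorem s18vb_span_abstract {EK FK EL FL : Type*} [Field EK] [Field FK] [Field EL] [Field FL]
    [Algebra EK FK] [Algebra EL FL] [FiniteDimensional EK FK] (ε : FK →+* FL) (ε₀ : EK →+* EL)
    (hε : ∀ c, ε (algebraMap EK FK c) = algebraMap EL FL (ε₀ c)) :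
    ∃ B : Subalgebra EL FL, (∀ x, ε x ∈ B) ∧ (∀ x ∈ B, x⁻¹ ∈ B) ∧
      (Subalgebra.toSubmodule B).FG ∧
      Module.finrank EL (Subalgebra.toSubmodule B) ≤ Module.finrank EK FK := by
  let v : Module.Basis (Fin (Module.finrank EK FK)) EK FK := Module.finBasis EK FK
  let w : Fin (Module.finrank EK FK) → FL := fun i => ε (v i)
  let B : Submodule EL FL := Submodule.span EL (Set.range w)
  have h1 : ∀ x : FK, ε x ∈ B := by
    intro x
    rw [← v.sum_repr x, map_sum]
    refine Submodule.sum_mem _ fun i _ => ?_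
    rw [Algebra.smul_def, map_mul, hε, ← Algebra.smul_def]
    exact Submodule.smul_mem _ _ (Submodule.subset_span ⟨i, rfl⟩)
  have hmul : ∀ x y, x ∈ B → y ∈ B → x * y ∈ B := by
    intro x y hx hy
    induction hx using Submodule.span_induction with
    | mem x hx =>
      obtain ⟨i, rfl⟩ := hx
      induction hy using Submodule.span_induction with
      | mem y hy =>
        obtain ⟨i', rfl⟩ := hy
        show ε (v i) * ε (v i') ∈ B
        rw [← map_mul]
        exact h1 _
      | zero => rw [mul_zero]; exact Submodule.zero_mem _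
      | add y z _ _ hy hz => rw [mul_add]; exact Submodule.add_mem _ hy hz
      | smul c y _ hy => rw [mul_smul_comm]; exact Submodule.smul_mem _ _ hy
    | zero => rw [zero_mul]; exact Submodule.zero_mem _
    | add x z _ _ hx hz => rw [add_mul]; exact Submodule.add_mem _ hx hz
    | smul c x _ hx => rw [smul_mul_assoc]; exact Submodule.smul_mem _ _ hx
  have hone : (1 : FL) ∈ B := by
    have := h1 1
    rwa [map_one] at this
  have hfg : B.FG := Submodule.fg_span (Set.finite_range w)
  refine ⟨B.toSubalgebra hone hmul, h1, ?_, ?_, ?_⟩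
  · intro x hx
    have hint : IsIntegral EL x :=
      IsIntegral.of_mem_of_fg (B.toSubalgebra hone hmul)
        (by rw [Submodule.toSubalgebra_toSubmodule]; exact hfg) x hx
    exact Subalgebra.inv_mem_of_algebraic (A := B.toSubalgebra hone hmul) (x := ⟨x, hx⟩)
      hint.isAlgebraic
  · rw [Submodule.toSubalgebra_toSubmodule]; exact hfg
  · rw [Submodule.toSubalgebra_toSubmodule]
    have := finrank_range_le_card (R := EL) w
    rwa [Fintype.card_fin] at this

/-- SPANNING GOES UP: the degree goes DOWN along `K ⊆ L` when `F_L` is generated by the image of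
`F_K`. -/
theorem s18vb_finrank_le_of_span (S : Set (LaurentSeries K)) (hS : S ⊆ FK)
    (hgen : FL = IntermediateField.adjoin L (s18vbEmb K L '' S))
    [FiniteDimensional K⟮(⟨j, hj⟩ : FK)⟯ FK] :
    FiniteDimensional L⟮(⟨s18vbEmb K L j, hF j hj⟩ : FL)⟯ FL ∧
      Module.finrank L⟮(⟨s18vbEmb K L j, hF j hj⟩ : FL)⟯ FL ≤
        Module.finrank K⟮(⟨j, hj⟩ : FK)⟯ FK := by
  obtain ⟨B, h1, hinv, hfg, hrank⟩ := s18vb_span_abstract
    (EK := K⟮(⟨j, hj⟩ : FK)⟯) (EL := L⟮(⟨s18vbEmb K L j, hF j hj⟩ : FL)⟯)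
    (s18vbRes FK FL hF)
    (((s18vbRes FK FL hF).comp (algebraMap K⟮(⟨j, hj⟩ : FK)⟯ FK)).codRestrict
      L⟮(⟨s18vbEmb K L j, hF j hj⟩ : FL)⟯ (fun c => s18vb_res_mem FK FL hF j hj c c.2))
    (fun c => rfl)
  have hle : IntermediateField.adjoin L (s18vbEmb K L '' S) ≤ FL := by rw [← hgen]
  have hall : ∀ y (hy : y ∈ FL), (⟨y, hy⟩ : FL) ∈ B := by
    intro y hy
    have hy' : y ∈ IntermediateField.adjoin L (s18vbEmb K L '' S) := hgen ▸ hy
    revert hy
    induction hy' using IntermediateField.adjoin_induction with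
    | mem y hy =>
      intro hyF
      obtain ⟨x, hx, rfl⟩ := hy
      exact h1 ⟨x, hS hx⟩
    | algebraMap c =>
      intro hyF
      have : (⟨algebraMap L (LaurentSeries L) c, hyF⟩ : FL) =
          algebraMap L⟮(⟨s18vbEmb K L j, hF j hj⟩ : FL)⟯ FL
            (algebraMap L L⟮(⟨s18vbEmb K L j, hF j hj⟩ : FL)⟯ c) := rfl
      rw [this]
      exact B.algebraMap_mem _
    | add y z hy hz hy' hz' =>
      intro hyF
      have e : (⟨y + z, hyF⟩ : FL) = (⟨y, hle hy⟩ : FL) + ⟨z, hle hz⟩ :=
        Subtype.ext (by rw [AddMemClass.coe_add])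
      rw [e]
      exact B.add_mem (hy' (hle hy)) (hz' (hle hz))
    | inv y hy hy' =>
      intro hyF
      have e : (⟨y⁻¹, hyF⟩ : FL) = (⟨y, hle hy⟩ : FL)⁻¹ :=
        Subtype.ext (by rw [IntermediateField.coe_inv])
      rw [e]
      exact hinv _ (hy' (hle hy))
    | mul y z hy hz hy' hz' =>
      intro hyF
      have e : (⟨y * z, hyF⟩ : FL) = (⟨y, hle hy⟩ : FL) * ⟨z, hle hz⟩ :=
        Subtype.ext (by rw [MulMemClass.coe_mul])
      rw [e]
      exact B.mul_mem (hy' (hle hy)) (hz' (hle hz))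
  have htop : Subalgebra.toSubmodule B = ⊤ := eq_top_iff.mpr fun y _ => hall y.1 y.2
  have hfin : Module.Finite L⟮(⟨s18vbEmb K L j, hF j hj⟩ : FL)⟯ FL :=
    Module.finite_def.mpr (htop ▸ hfg)
  refine ⟨hfin, ?_⟩
  rw [← finrank_top L⟮(⟨s18vbEmb K L j, hF j hj⟩ : FL)⟯ FL, ← htop]
  exact hrank

end Fields

section Modular

variable (M : ℕ) [NeZero M]

/-- the degree statement over `K` (a definition, so that for `K = ℚ` the instances are the
generic ones of intermediate fields). -/
def S18VbDeg (K : Type*) [Field K] (M : ℕ) [NeZero M] (n : ℕ) : Prop :=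
  FiniteDimensional K⟮(⟨jqModC K, jqModC_mem_full K M⟩ : modularFunctionFieldFullC K M)⟯
      (modularFunctionFieldFullC K M) ∧
    Module.finrank K⟮(⟨jqModC K, jqModC_mem_full K M⟩ : modularFunctionFieldFullC K M)⟯
      (modularFunctionFieldFullC K M) ≤ n

/-- step (1): over `ℚ`. -/
theorem s18vb_deg_rat :
    S18VbDeg ℚ M (Nat.card (SL(2, ℤ) ⧸ CongruenceSubgroup.Gamma0 M)) := by
  unfold S18VbDeg
  have hF : ∀ x ∈ modularFunctionFieldFullC ℚ M,
      s18vbEmb ℚ Fermat.Agent.S24.QBar x ∈ modularFunctionFieldBar M := fun x hx =>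
    coeffEmb_mem_laurentBaseChange _ hx
  have : FiniteDimensional
      (Fermat.Agent.S24.QBar)⟮(⟨s18vbEmb ℚ Fermat.Agent.S24.QBar (jqModC ℚ),
        hF _ (jqModC_mem_full ℚ M)⟩ : modularFunctionFieldBar M)⟯ (modularFunctionFieldBar M) :=
    Fermat.Agent.S24.finiteDimensional_jBar M
  obtain ⟨h1, h2⟩ := s18vb_finrank_le_of_indep (modularFunctionFieldFullC ℚ M)
    (modularFunctionFieldBar M) hF (jqModC ℚ) (jqModC_mem_full ℚ M)
  refine ⟨h1, h2.trans (le_of_eq ?_)⟩
  exact Fermat.Agent.S24.finrank_jBar M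

/-- the coefficientwise base change maps `F_ℚ(M)` into `F_K(M)`. -/
theorem s18vb_emb_mem_full (K : Type*) [Field K] [CharZero K] (x : LaurentSeries ℚ)
    (hx : x ∈ modularFunctionFieldFullC ℚ M) :
    s18vbEmb ℚ K x ∈ modularFunctionFieldFullC K M := by
  unfold modularFunctionFieldFullC at hx
  induction hx using IntermediateField.adjoin_induction with
  | mem x hx =>
    obtain ⟨d, hd, hdM, rfl⟩ := hx
    have := hd
    have e : s18vbEmb ℚ K (qExpand ℚ d (jqModC ℚ)) = qExpand K d (jqModC K) := by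
      rw [coeffMap_qExpand, coeffMap_jqModC]
    rw [e]
    exact jqModCd_mem_full K M hdM
  | algebraMap a =>
    rw [s18vb_emb_algebraMap]
    exact IntermediateField.algebraMap_mem _ _
  | add x y _ _ hx hy => rw [map_add]; exact add_mem hx hy
  | inv x _ hx => rw [map_inv₀]; exact inv_mem hx
  | mul x y _ _ hx hy => rw [map_mul]; exact mul_mem hx hy

theorem s18vb_divisorExpansionsC_eq (K : Type*) [Field K] [CharZero K] :
    divisorExpansionsC K M = s18vbEmb ℚ K '' divisorExpansionsC ℚ M := by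
  ext x
  constructor
  · rintro ⟨d, hd, hdM, rfl⟩
    have := hd
    refine ⟨qExpand ℚ d (jqModC ℚ), ⟨d, hd, hdM, rfl⟩, ?_⟩
    rw [coeffMap_qExpand, coeffMap_jqModC]
  · rintro ⟨y, ⟨d, hd, hdM, rfl⟩, rfl⟩
    have := hd
    refine ⟨d, hd, hdM, ?_⟩
    rw [coeffMap_qExpand, coeffMap_jqModC]

/-- step (2): from `ℚ` to any field of characteristic `0`. -/
theorem s18vb_deg_of_rat (K : Type*) [Field K] [CharZero K] (n : ℕ) (h : S18VbDeg ℚ M n) :
    S18VbDeg K M n := by
  unfold S18VbDeg at h ⊢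
  obtain ⟨hfd, hle⟩ := h
  have hS : divisorExpansionsC ℚ M ⊆ modularFunctionFieldFullC ℚ M :=
    IntermediateField.subset_adjoin _ _
  have hgen : modularFunctionFieldFullC K M =
      IntermediateField.adjoin K (s18vbEmb ℚ K '' divisorExpansionsC ℚ M) := by
    rw [← s18vb_divisorExpansionsC_eq]
    rfl
  obtain ⟨h1, h2⟩ := s18vb_finrank_le_of_span (modularFunctionFieldFullC ℚ M)
    (modularFunctionFieldFullC K M) (s18vb_emb_mem_full M K) (jqModC ℚ) (jqModC_mem_full ℚ M)
    (divisorExpansionsC ℚ M) hS hgen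
  have e : (⟨s18vbEmb ℚ K (jqModC ℚ), s18vb_emb_mem_full M K _ (jqModC_mem_full ℚ M)⟩ :
      modularFunctionFieldFullC K M) = ⟨jqModC K, jqModC_mem_full K M⟩ :=
    Subtype.ext (coeffMap_jqModC _)
  rw [e] at h1 h2
  exact ⟨h1, h2.trans hle⟩

/-- (V-b) `[F_K(M) : K(j)] ≤ ψ(M)` for every field `K` of characteristic `0`. -/
theorem s18v_finrank_le' (K : Type*) [Field K] [CharZero K] :
    FiniteDimensional K⟮(⟨jqModC K, jqModC_mem_full K M⟩ : modularFunctionFieldFullC K M)⟯
        (modularFunctionFieldFullC K M) ∧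
      Module.finrank K⟮(⟨jqModC K, jqModC_mem_full K M⟩ : modularFunctionFieldFullC K M)⟯
        (modularFunctionFieldFullC K M) ≤ Nat.card (SL(2, ℤ) ⧸ CongruenceSubgroup.Gamma0 M) :=
  s18vb_deg_of_rat M K _ (s18vb_deg_rat M)

end Modular

end Fermat.Agent.S18
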