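import Mathlib
import Fermat.Agent.S18.V.Defs
import Fermat.Agent.S18.V.Gauss
import Fermat.Agent.S18.V.DegreeUp
import Fermat.Agent.S18.V.Coord
import Fermat.Agent.S18.V.DegreeDown
import Fermat.Agent.S24.PlacesDefs

/-!
# S18, package V : assembly (all leaves proved in the imported files; `s18v_coord_j'` assembled)

ABSTRACT PART (any intermediate field `L₀ ⊆ F ⊆ L₀((q))`, `A₀` a DVR with uniformiser `ϖ`):
* (V-a) `s18v_mem_or_inv_mem`, `s18v_dvd_or_inv_mem`, `s18v_unif_not_unit`, `s18v_loc_le`,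
  `s18v_mem_loc_of_mem`: the Gauss ring `s18vO F` is a valuation ring of `F`, local with maximal
  ideal `ϖ · s18vO F`, and it induces the Gauss ring `A₀[t]_(ϖ)` on `L₀(t)` for an integral `t` with
  a pole mod `ϖ`;
* (V-d,e) `s18v_coord_of_powerBasis`: if `ξ ∈ F` is integral and `1, ξ̄, …, ξ̄^{n-1}`
  (`n = [F : L₀(t)]`) are linearly independent over `k₀(t̄)` and `ξ̄` is separable over `k₀(t̄)`, then
  `t` is a GOOD COORDINATE (`S18Coord`): the elementary fundamental inequality.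
MODULAR PART (`F = F_{L₀}(M)`, `t = j`, `ξ = j_M`):
* (V-gen) `s18v_gen_full`; (V-b) `s18v_finrank_le`; (V-c) `s18v_indep_jM`, `s18v_separable_jM`,
  `s18v_isSepGen_res`.
-/

set_option autoImplicit false
set_option linter.unusedSectionVars false
set_option synthInstance.maxHeartbeats 400000

noncomputable section

namespace Fermat.Agent.S18

open ModularCurve IsLocalRing Polynomial IntermediateField
open scoped MatrixGroups

variable {A₀ : Type*} [CommRing A₀] [IsDomain A₀] [IsDiscreteValuationRing A₀] [CharZero A₀]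
variable {L₀ : Type*} [Field L₀] [Algebra A₀ L₀] [IsFractionRing A₀ L₀]
variable {ϖ : A₀}

/-! ### (V-a) the Gauss ring -/

/-- `s18vO F` is a valuation ring of `F`.
Proof: write `x = a/b` with `a, b` bounded (`S18VGen`); a nonzero bounded series is `ϖ^n` times a
primitive one (`n ∈ ℤ`; the minimum of the valuations of the coefficients exists). -/
theorem s18v_mem_or_inv_mem (hϖ : Irreducible ϖ) (F : IntermediateField L₀ (LaurentSeries L₀))
    (hF : S18VGen A₀ F) (x : F) : x ∈ s18vO A₀ F ∨ x⁻¹ ∈ s18vO A₀ F :=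
  s18v_mem_or_inv_mem' F hϖ hF x

/-- every element of the Gauss ring is divisible by `ϖ` or a unit. -/
theorem s18v_dvd_or_inv_mem (hϖ : Irreducible ϖ) (F : IntermediateField L₀ (LaurentSeries L₀))
    (x : F) (hx : x ∈ s18vO A₀ F) :
    (∃ y ∈ s18vO A₀ F, x = algebraMap A₀ F ϖ * y) ∨ x⁻¹ ∈ s18vO A₀ F :=
  s18v_dvd_or_inv_mem' F hϖ x hx

/-- `ϖ` is not a unit of the Gauss ring. -/
theorem s18v_unif_not_unit (hϖ : Irreducible ϖ) (F : IntermediateField L₀ (LaurentSeries L₀)) :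
    (algebraMap A₀ F ϖ)⁻¹ ∉ s18vO A₀ F :=
  s18v_unif_not_unit' F hϖ

/-- quotients of good elements: `x b = a` with `b̄ ≠ 0` puts `x` in the Gauss ring, and `x ≡ 0 mod ϖ`
iff `ā = 0`. -/
theorem s18v_dvd_iff (hϖ : Irreducible ϖ) (F : IntermediateField L₀ (LaurentSeries L₀))
    (x : F) (a b : LaurentSeries A₀) (ha : s18vIncl A₀ L₀ a ∈ F) (hb : s18vIncl A₀ L₀ b ∈ F)
    (hb0 : s18vRes A₀ b ≠ 0) (hx : (x : LaurentSeries L₀) * s18vIncl A₀ L₀ b = s18vIncl A₀ L₀ a) :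
    (∃ y ∈ s18vO A₀ F, x = algebraMap A₀ F ϖ * y) ↔ s18vRes A₀ a = 0 :=
  s18v_dvd_iff' F hϖ x a b ha hb hb0 hx

/-- `A₀[t]_(ϖ) ⊆ s18vO F`. -/
theorem s18v_loc_le (hϖ : Irreducible ϖ) (F : IntermediateField L₀ (LaurentSeries L₀)) (t : F)
    (τ : LaurentSeries A₀) (ht : S18VPole F t τ) (x : F)
    (hx : x ∈ s18tLoc A₀ t (C ϖ) (s18t_prime_C hϖ)) : x ∈ s18vO A₀ F :=
  s18v_loc_le' F hϖ t τ ht x hx

/-- `s18vO F ∩ L₀(t) ⊆ A₀[t]_(ϖ)`. -/
theorem s18v_mem_loc_of_mem (hϖ : Irreducible ϖ) (F : IntermediateField L₀ (LaurentSeries L₀))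
    (t : F) (τ : LaurentSeries A₀) (ht : S18VPole F t τ) (x : F) (hx : x ∈ s18vO A₀ F)
    (hxt : x ∈ L₀⟮t⟯) : x ∈ s18tLoc A₀ t (C ϖ) (s18t_prime_C hϖ) :=
  s18v_mem_loc_of_mem' F hϖ t τ ht x hx hxt

/-- `t` with a pole mod `ϖ` is transcendental over `L₀`. -/
theorem s18v_transcendental (F : IntermediateField L₀ (LaurentSeries L₀)) (t : F)
    (τ : LaurentSeries A₀) (ht : S18VPole F t τ) : Transcendental L₀ t := by
  obtain ⟨ϖ', hϖ'⟩ := IsDiscreteValuationRing.exists_irreducible A₀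
  exact s18v_transcendental' F hϖ' t τ ht

/-! ### (V-d,e) the abstract coordinate theorem -/

/-- linear independence over `k₀(t̄)` of the reductions of the powers of `ξ` -/
def S18VIndep (τ ξ : LaurentSeries A₀) (n : ℕ) : Prop :=
  ∀ c : Fin n → (ResidueField A₀)[X],
    ∑ i, aeval (s18vRes A₀ τ) (c i) * s18vRes A₀ ξ ^ (i : ℕ) = 0 → c = 0

/-- (V-d,e) THE ABSTRACT COORDINATE THEOREM (elementary fundamental inequality).
(d1) lifts of `k₀(t̄)`-independent elements are `L₀(t)`-independent: scale a relation into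
`A₀[t]_(ϖ)` with a unit coefficient and reduce; so `ξ^i`, `i < n`, is an `L₀(t)`-basis of `F`;
(d2) every `y ∈ s18vO F` has coordinates in `A₀[t]_(ϖ)` (else scale by `ϖ^m` and reduce); so
`s18vO F = ⊕ A₀[t]_(ϖ) ξ^i` is finite over `A₀[t]_(ϖ)`, hence integral, and integrally closed
(valuation ring): `intLoc_eq`;
(e) the trace of `y ∈ s18vO F` reduces to the trace of `ȳ` in `R_k = ⊕ k₀(t̄) ξ̄^i`; `R_k` is a
field, separable over `k₀(t̄)` (`hsep`), so the Gram determinant `det Tr(ξ^{i+j})` is a unit of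
`A₀[t]_(ϖ)`: self-dual. -/
theorem s18v_coord_of_powerBasis (hϖ : Irreducible ϖ)
    (F : IntermediateField L₀ (LaurentSeries L₀)) (hF : S18VGen A₀ F) (t : F)
    (τ : LaurentSeries A₀) (ht : S18VPole F t τ) [FiniteDimensional L₀⟮t⟯ F]
    (ξ : LaurentSeries A₀) (hξ : s18vIncl A₀ L₀ ξ ∈ F)
    (hind : S18VIndep τ ξ (Module.finrank L₀⟮t⟯ F))
    (hsep : IsSeparable ↥((ResidueField A₀)⟮s18vRes A₀ τ⟯) (s18vRes A₀ ξ)) :
    S18Coord hϖ F t :=
  s18vc_coord_of_powerBasis hϖ F hF t τ ht ξ hξ hind hsep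

/-! ### The modular part -/

/-- (V-gen) `F_{L₀}(M)` is generated by integral series. -/
theorem s18v_gen_full (M : ℕ) [NeZero M] : S18VGen A₀ (modularFunctionFieldFullC L₀ M) :=
  s18v_gen_full' M

/-- `j` is integral with a pole. -/
theorem s18v_pole_j (M : ℕ) [NeZero M] :
    S18VPole (A₀ := A₀) (modularFunctionFieldFullC L₀ M) ⟨jqModC L₀, jqModC_mem_full L₀ M⟩
      (jqModC A₀) :=
  s18v_pole_j' M

/-- (V-b) `[F_K(M) : K(j)] ≤ ψ(M)` for every field `K` of characteristic `0`.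
Proof: S24 `finrank_jBar` over `ℚ̄`; `ℚ`: elements of `ℚ((q))` linearly independent over `ℚ(j)`
stay independent over `ℚ̄(j)` (expand coefficients in a `ℚ`-basis); general `K`: a `ℚ(j)`-spanning
set of `ℚ(j, j_d)` spans `K(j, j_d)` over `K(j)`. -/
theorem s18v_finrank_le (K : Type*) [Field K] [CharZero K] (M : ℕ) [NeZero M] :
    FiniteDimensional K⟮(⟨jqModC K, jqModC_mem_full K M⟩ : modularFunctionFieldFullC K M)⟯
        (modularFunctionFieldFullC K M) ∧
      Module.finrank K⟮(⟨jqModC K, jqModC_mem_full K M⟩ : modularFunctionFieldFullC K M)⟯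
        (modularFunctionFieldFullC K M) ≤ Nat.card (SL(2, ℤ) ⧸ CongruenceSubgroup.Gamma0 M) :=
  s18v_finrank_le' M K

/-! ### Assembly: `j` is a good coordinate -/

theorem s18v_charP (hϖ : Irreducible ϖ) {ℓ : ℕ} [Fact ℓ.Prime]
    (hℓ : (ℓ : A₀) ∈ maximalIdeal A₀) : CharP (ResidueField A₀) ℓ := by
  rw [CharP.charP_iff_prime_eq_zero (Fact.out : ℓ.Prime)]
  have : residue A₀ (ℓ : A₀) = 0 := (residue_eq_zero_iff _).mpr hℓ
  simpa using this

/-- `j` is a good coordinate of `F_{L₀}(M)` (= `s18v_coord_j` of `Core/Spec.lean`). -/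
theorem s18v_coord_j' (hϖ : Irreducible ϖ) {ℓ : ℕ} [Fact ℓ.Prime]
    (hℓ : (ℓ : A₀) ∈ maximalIdeal A₀) (M : ℕ) [NeZero M] (hℓM : ¬ ℓ ∣ M) :
    S18Coord hϖ (modularFunctionFieldFullC L₀ M) ⟨jqModC L₀, jqModC_mem_full L₀ M⟩ := by
  haveI : CharZero L₀ := charZero_of_injective_algebraMap (IsFractionRing.injective A₀ L₀)
  haveI : CharP (ResidueField A₀) ℓ := s18v_charP hϖ hℓ
  obtain ⟨hfd, hle⟩ := s18v_finrank_le L₀ M
  haveI := hfd
  have hτ : s18vRes A₀ (jqModC A₀) = jqModC (ResidueField A₀) := coeffMap_jqModC _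
  have hξ : s18vRes A₀ (jqNModC A₀ M) = jqNModC (ResidueField A₀) M := coeffMap_jqNModC _ M
  refine s18v_coord_of_powerBasis hϖ _ (s18v_gen_full M) _ (jqModC A₀) (s18v_pole_j M)
    (jqNModC A₀ M) ?_ ?_ ?_
  · have : s18vIncl A₀ L₀ (jqNModC A₀ M) = jqNModC L₀ M := coeffMap_jqNModC _ M
    rw [this]
    exact jqModCd_mem_full L₀ M dvd_rfl
  · intro c hc
    rw [hτ, hξ] at hc
    exact s18v_indep_jM (ℓ := ℓ) (ResidueField A₀) M hℓM _ hle c hc
  · rw [hτ, hξ]
    exact s18v_separable_jd (ℓ := ℓ) (ResidueField A₀) M hℓM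

end Fermat.Agent.S18
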